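import Fermat.Agent.ECTorsion.Count
import Fermat.Prelude.Def_GaloisRep_Residual
import Fermat.Prelude.Def_FreyPackage_GaloisRep
import Mathlib.FieldTheory.KrullTopology

/-!
# Torsion of `W⁄K` as a `ZMod n`-module with Galois action
-/

namespace Fermat.Agent.ECTorsion

open WeierstrassCurve WeierstrassCurve.Affine WeierstrassCurve.Affine.Point
open scoped WeierstrassCurve.Affine

universe r s v

section General

variable {R : Type r} {S : Type s} {K : Type v} [CommRing R] [Field S] [Field K]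
  [DecidableEq K] [Algebra R S] [Algebra R K] [Algebra S K] [IsScalarTower R S K]
  {W : WeierstrassCurve R}

omit [DecidableEq K] [Algebra R S] [Algebra S K] [IsScalarTower R S K] in
lemma Δ_baseChange_ne_zero (hΔ : algebraMap R K W.Δ ≠ 0) : (W⁄K).Δ ≠ 0 :=
  fun h ↦ hΔ ((WeierstrassCurve.map_Δ W (algebraMap R K)).symm.trans h)

omit [Algebra R S] [Algebra S K] [IsScalarTower R S K] in
theorem natCard_torsionBy_baseChange [IsAlgClosed K] (hΔ : algebraMap R K W.Δ ≠ 0) {n : ℕ}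
    (hn : (n : K) ≠ 0) :
    Nat.card (Submodule.torsionBy ℤ (W⁄K).Point n) = n ^ 2 :=
  natCard_torsionBy (Δ_baseChange_ne_zero hΔ) hn

omit [Algebra R S] [Algebra S K] [IsScalarTower R S K] in
theorem finite_torsionBy_baseChange (hΔ : algebraMap R K W.Δ ≠ 0) {n : ℕ} (hn : (n : K) ≠ 0) :
    Finite (Submodule.torsionBy ℤ (W⁄K).Point n) :=
  finite_torsionBy (Δ_baseChange_ne_zero hΔ) hn

omit [Algebra R S] [Algebra S K] [IsScalarTower R S K] in
theorem finrank_torsionBy_baseChange [IsAlgClosed K] (hΔ : algebraMap R K W.Δ ≠ 0) {p : ℕ}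
    [Fact p.Prime] (hp : (p : K) ≠ 0) :
    Module.finrank (ZMod p) (Submodule.torsionBy ℤ (W⁄K).Point p) = 2 := by
  have := finite_torsionBy_baseChange hΔ hp
  have h := Module.natCard_eq_pow_finrank (K := ZMod p)
    (V := Submodule.torsionBy ℤ (W⁄K).Point p)
  rw [natCard_torsionBy_baseChange hΔ hp, Nat.card_zmod] at h
  exact (Nat.pow_right_injective (Fact.out : p.Prime).two_le h).symm

omit [Algebra R S] [Algebra S K] [IsScalarTower R S K] in
theorem nonempty_linearEquiv_torsionBy_baseChange [IsAlgClosed K] (hΔ : algebraMap R K W.Δ ≠ 0)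
    {n : ℕ} (hn : (n : K) ≠ 0) :
    Nonempty (Submodule.torsionBy ℤ (W⁄K).Point n ≃ₗ[ZMod n] (Fin 2 → ZMod n)) := by
  obtain ⟨e⟩ := nonempty_torsionBy_addEquiv (Δ_baseChange_ne_zero hΔ) hn
  exact ⟨{ e with map_smul' := ZMod.map_smul e.toAddMonoidHom }⟩

theorem isOpen_stabilizer_point [Algebra.IsAlgebraic S K] (P : (W⁄K).Point) :
    IsOpen ((MulAction.stabilizer (K ≃ₐ[S] K) P : Subgroup (K ≃ₐ[S] K)) : Set (K ≃ₐ[S] K)) := by
  rcases P with _ | ⟨x, y, h⟩
  · convert! isOpen_univ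
    exact Set.eq_univ_of_forall fun σ ↦ smul_zero (A := (W⁄K).Point) σ
  · set L := IntermediateField.adjoin S ({x, y} : Set K)
    have : FiniteDimensional S L :=
      IntermediateField.finiteDimensional_adjoin fun z _ ↦
        (Algebra.IsAlgebraic.isAlgebraic z).isIntegral
    refine Subgroup.isOpen_mono ?_ L.fixingSubgroup_isOpen
    intro σ hσ
    rw [IntermediateField.mem_fixingSubgroup_iff] at hσ
    rw [MulAction.mem_stabilizer_iff, algEquiv_smul_def]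
    simp only [Point.map_some, Point.some.injEq]
    exact ⟨hσ x (IntermediateField.subset_adjoin S _ (by simp)),
      hσ y (IntermediateField.subset_adjoin S _ (by simp))⟩

variable (S) in
theorem exists_finite_level [Algebra.IsAlgebraic S K] (hΔ : algebraMap R K W.Δ ≠ 0) {n : ℕ}
    (hn : (n : K) ≠ 0) :
    ∃ L : IntermediateField S K, FiniteDimensional S L ∧
      ∀ σ : K ≃ₐ[S] K, (∀ x ∈ L, σ x = x) →
        ∀ P : Submodule.torsionBy ℤ (W⁄K).Point n, σ • P = P := by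
  have := finite_torsionBy_baseChange hΔ hn
  set T : Set K := ⋃ P : Submodule.torsionBy ℤ (W⁄K).Point n,
    {z | ∃ x y h, (P : (W⁄K).Point) = Point.some x y h ∧ (z = x ∨ z = y)}
  have hTfin : T.Finite := Set.finite_iUnion fun P ↦ by
    rcases hP : (P : (W⁄K).Point) with _ | ⟨x, y, h⟩
    · convert! Set.finite_empty
      exact Set.eq_empty_of_forall_notMem fun z ⟨x, y, h, e, _⟩ ↦ nomatch e
    · refine (Set.toFinite ({x, y} : Set K)).subset fun z ⟨x', y', h', e, hz⟩ ↦ ?_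
      obtain ⟨rfl, rfl⟩ := Point.some.inj e
      simpa using hz
  have : Finite T := hTfin
  refine ⟨IntermediateField.adjoin S T, IntermediateField.finiteDimensional_adjoin fun z _ ↦
      (Algebra.IsAlgebraic.isAlgebraic z).isIntegral, fun σ hσ P ↦ Subtype.ext ?_⟩
  rcases hP : (P : (W⁄K).Point) with _ | ⟨x, y, h⟩
  · show σ • (P : (W⁄K).Point) = _
    rw [hP]
    exact smul_zero (A := (W⁄K).Point) σ
  · show σ • (P : (W⁄K).Point) = _
    rw [hP, algEquiv_smul_def]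
    simp only [Point.map_some, Point.some.injEq]
    exact ⟨hσ x (IntermediateField.subset_adjoin S _
        (Set.mem_iUnion.mpr ⟨P, x, y, h, hP, Or.inl rfl⟩)),
      hσ y (IntermediateField.subset_adjoin S _
        (Set.mem_iUnion.mpr ⟨P, x, y, h, hP, Or.inr rfl⟩))⟩

end General

section Rat

variable (W : WeierstrassCurve ℚ)

lemma algebraMap_qbar_Δ_ne_zero (hΔ : W.Δ ≠ 0) : algebraMap ℚ (AlgebraicClosure ℚ) W.Δ ≠ 0 :=
  (_root_.map_ne_zero _).mpr hΔ

theorem natCard_torsionBy_qbar (hΔ : W.Δ ≠ 0) {n : ℕ} (hn : n ≠ 0) :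
    Nat.card (Submodule.torsionBy ℤ (W⁄(AlgebraicClosure ℚ)).Point n) = n ^ 2 :=
  natCard_torsionBy_baseChange (algebraMap_qbar_Δ_ne_zero W hΔ) (Nat.cast_ne_zero.mpr hn)

theorem finite_torsionBy_qbar (hΔ : W.Δ ≠ 0) {n : ℕ} (hn : n ≠ 0) :
    Finite (Submodule.torsionBy ℤ (W⁄(AlgebraicClosure ℚ)).Point n) :=
  finite_torsionBy_baseChange (algebraMap_qbar_Δ_ne_zero W hΔ) (Nat.cast_ne_zero.mpr hn)

theorem finrank_torsionBy_qbar (hΔ : W.Δ ≠ 0) (p : ℕ) [Fact p.Prime] :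
    Module.finrank (ZMod p) (Submodule.torsionBy ℤ (W⁄(AlgebraicClosure ℚ)).Point p) = 2 :=
  finrank_torsionBy_baseChange (algebraMap_qbar_Δ_ne_zero W hΔ)
    (Nat.cast_ne_zero.mpr (Fact.out : p.Prime).ne_zero)

theorem galoisFactorsThroughFiniteLevel_galoisRepModuleEnd (hΔ : W.Δ ≠ 0) {n : ℕ} (hn : n ≠ 0) :
    GaloisFactorsThroughFiniteLevel
      (WeierstrassCurve.Affine.Point.galoisRepModuleEnd (K := AlgebraicClosure ℚ) ℚ W n) := by
  have : Algebra.IsAlgebraic ℚ (AlgebraicClosure ℚ) := AlgebraicClosure.isAlgebraic ℚ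
  obtain ⟨L, hL, h⟩ := exists_finite_level (S := ℚ) (W := W) (K := AlgebraicClosure ℚ)
    (algebraMap_qbar_Δ_ne_zero W hΔ) (n := n) (Nat.cast_ne_zero.mpr hn)
  exact ⟨L, hL, fun σ hσ ↦ LinearMap.ext fun P ↦ h σ hσ P⟩

lemma map_castRingHom_Δ_ne_zero (V : WeierstrassCurve ℤ) (hΔ : V.Δ ≠ 0) :
    (V.map (Int.castRingHom ℚ)).Δ ≠ 0 := by
  rw [WeierstrassCurve.map_Δ, eq_intCast]
  exact Int.cast_ne_zero.mpr hΔ

theorem natCard_torsionBy_qbar_of_int (V : WeierstrassCurve ℤ) (hΔ : V.Δ ≠ 0) {n : ℕ}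
    (hn : n ≠ 0) :
    Nat.card (Submodule.torsionBy ℤ
      ((V.map (Int.castRingHom ℚ))⁄(AlgebraicClosure ℚ)).Point n) = n ^ 2 :=
  natCard_torsionBy_qbar _ (map_castRingHom_Δ_ne_zero V hΔ) hn

lemma freyCurve_Δ_eq (P : FreyPackage) :
    P.freyCurve.Δ = ((P.a : ℚ) ^ P.p * (P.b : ℚ) ^ P.p * (P.c : ℚ) ^ P.p) ^ 2 / 256 := by
  have h : (P.a : ℚ) ^ P.p + (P.b : ℚ) ^ P.p = (P.c : ℚ) ^ P.p := by exact_mod_cast P.hFLT
  rw [← h]
  simp only [FreyPackage.freyCurve, WeierstrassCurve.Δ, WeierstrassCurve.b₂, WeierstrassCurve.b₄,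
    WeierstrassCurve.b₆, WeierstrassCurve.b₈]
  ring

lemma freyCurve_Δ_ne_zero (P : FreyPackage) : P.freyCurve.Δ ≠ 0 := by
  rw [freyCurve_Δ_eq]
  have ha : (P.a : ℚ) ≠ 0 := Int.cast_ne_zero.mpr P.ha0
  have hb : (P.b : ℚ) ≠ 0 := Int.cast_ne_zero.mpr P.hb0
  have hc : (P.c : ℚ) ≠ 0 := Int.cast_ne_zero.mpr P.hc0
  positivity

theorem natCard_torsionBy_freyCurve (P : FreyPackage) :
    Nat.card (Submodule.torsionBy ℤ (P.freyCurve⁄(AlgebraicClosure ℚ)).Point P.p) = P.p ^ 2 :=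
  natCard_torsionBy_qbar _ (freyCurve_Δ_ne_zero P) P.pp.ne_zero

end Rat

end Fermat.Agent.ECTorsion
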