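import Mathlib.Algebra.Module.Torsion.Basic
import Mathlib.Algebra.Module.ZMod
import Mathlib.Data.Nat.Factorization.Basic
import Mathlib.GroupTheory.Index
import Mathlib.RingTheory.Int.Basic
import Mathlib.GroupTheory.OrderOfElement

/-!
# An abelian group with `#A[d] = d ^ 2` for all `d ∣ n` has `A[n] ≅ (ℤ/n)²`
-/

namespace Fermat.Agent.ECTorsion

variable {A : Type*} [AddCommGroup A]

/-- A group of exponent a prime `p` and order `p ^ 2` has two independent elements. -/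
lemma exists_independent_pair_prime {p : ℕ} (hp : p.Prime)
    (h : Nat.card (Submodule.torsionBy ℤ A p) = p ^ 2) :
    ∃ e e' : A, (p : ℤ) • e = 0 ∧ (p : ℤ) • e' = 0 ∧
      ∀ a b : ℤ, a • e + b • e' = 0 → (p : ℤ) ∣ a ∧ (p : ℤ) ∣ b := by
  set T := Submodule.torsionBy ℤ A p
  have hfin : Finite T := Nat.finite_of_card_ne_zero (h ▸ pow_ne_zero 2 hp.ne_zero)
  have : Nontrivial T := Finite.one_lt_card_iff_nontrivial.mp (h ▸ Nat.one_lt_pow two_ne_zero hp.one_lt)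
  obtain ⟨e, he⟩ := exists_ne (0 : T)
  have hpT : ∀ t : T, (p : ℤ) • t = 0 := Submodule.smul_torsionBy _
  have hord : addOrderOf e = p :=
    @addOrderOf_eq_prime _ _ _ p ⟨hp⟩ (by rw [← natCast_zsmul]; exact hpT e) he
  obtain ⟨e', he'⟩ : ∃ e' : T, e' ∉ AddSubgroup.zmultiples e := by
    by_contra hall
    push Not at hall
    have hcard : Nat.card (AddSubgroup.zmultiples e) = Nat.card T :=
      Nat.card_congr (Equiv.subtypeUnivEquiv hall)
    rw [Nat.card_zmultiples, hord, h] at hcard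
    nlinarith [hp.two_le]
  refine ⟨e, e', by exact_mod_cast congrArg Subtype.val (hpT e),
    by exact_mod_cast congrArg Subtype.val (hpT e'), fun a b hab ↦ ?_⟩
  have hab' : a • e + b • e' = 0 := Subtype.ext (by simpa using hab)
  have hb : (p : ℤ) ∣ b := by
    by_contra hb
    obtain ⟨u, v, huv⟩ := (Nat.prime_iff_prime_int.mp hp).coprime_iff_not_dvd.mpr hb
    refine he' (AddSubgroup.mem_zmultiples_iff.mpr ⟨-(v * a), ?_⟩)
    have h1 : e' = u • ((p : ℤ) • e') + v • (b • e') := by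
      rw [smul_smul, smul_smul, ← add_smul, huv, one_smul]
    have h2 : b • e' = -(a • e) := by rw [eq_neg_iff_add_eq_zero, add_comm]; exact hab'
    rw [h1, hpT, smul_zero, zero_add, h2, smul_neg, neg_smul, mul_smul]
  refine ⟨?_, hb⟩
  obtain ⟨k, rfl⟩ := hb
  rw [mul_comm, mul_smul, hpT, smul_zero, add_zero] at hab'
  rw [← hord]
  exact addOrderOf_dvd_iff_zsmul_eq_zero.mpr hab'

/-- Multiplication by `m` maps `A[m * d]` onto `A[d]` when the orders are right. -/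
lemma exists_zsmul_eq_of_card {m d : ℕ} (hm : m ≠ 0) (hd : d ≠ 0)
    (h : ∀ k ∈ ({m, d, m * d} : Set ℕ), Nat.card (Submodule.torsionBy ℤ A k) = k ^ 2)
    {e : A} (he : (d : ℤ) • e = 0) :
    ∃ P : A, ((m * d : ℕ) : ℤ) • P = 0 ∧ (m : ℤ) • P = e := by
  set B := Submodule.torsionBy ℤ A (m * d : ℕ)
  set C := Submodule.torsionBy ℤ A d
  have hmem : ∀ x : B, (m : ℤ) • (x : A) ∈ C := fun x ↦ by
    show (d : ℤ) • (m : ℤ) • (x : A) = 0
    rw [smul_smul, mul_comm, ← Nat.cast_mul]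
    exact x.property
  let f : B →+ C :=
    { toFun := fun x ↦ ⟨(m : ℤ) • (x : A), hmem x⟩
      map_zero' := Subtype.ext (smul_zero _)
      map_add' := fun x y ↦ Subtype.ext (smul_add _ _ _) }
  have hker : Nat.card f.ker = m ^ 2 := by
    rw [← h m (by simp)]
    refine Nat.card_congr ⟨fun x ↦ ⟨x.1.1, congrArg Subtype.val x.2⟩, fun x ↦ ⟨⟨x.1, ?_⟩, ?_⟩,
      fun _ ↦ rfl, fun _ ↦ rfl⟩
    · show ((m * d : ℕ) : ℤ) • (x : A) = 0
      rw [Nat.cast_mul, mul_comm, mul_smul, show (m : ℤ) • (x : A) = 0 from x.2, smul_zero]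
    · exact Subtype.ext x.2
  have : Finite C := Nat.finite_of_card_ne_zero (by rw [h d (by simp)]; exact pow_ne_zero 2 hd)
  have hrange : Nat.card f.range = Nat.card C := by
    have := f.ker.card_mul_index
    rw [AddSubgroup.index_ker, hker, h (m * d) (by simp), mul_pow] at this
    rw [h d (by simp)]
    exact Nat.eq_of_mul_eq_mul_left (pow_pos (Nat.pos_of_ne_zero hm) 2) this
  have htop : f.range = ⊤ := AddSubgroup.eq_top_of_card_eq _ hrange
  obtain ⟨x, hx⟩ := f.range_eq_top.mp htop ⟨e, he⟩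
  exact ⟨x, x.property, congrArg Subtype.val hx⟩

/-- If `#A[d] = d ^ 2` for all `d ∣ n`, then `A[n]` has two independent elements of order `n`. -/
lemma exists_independent_pair {n : ℕ} (hn : n ≠ 0)
    (h : ∀ d, d ∣ n → Nat.card (Submodule.torsionBy ℤ A d) = d ^ 2) :
    ∃ P Q : A, (n : ℤ) • P = 0 ∧ (n : ℤ) • Q = 0 ∧
      ∀ a b : ℤ, a • P + b • Q = 0 → (n : ℤ) ∣ a ∧ (n : ℤ) ∣ b := by
  have key : ∀ r ∈ n.primeFactors, ∃ e e' P P' : A, (r : ℤ) • e = 0 ∧ (r : ℤ) • e' = 0 ∧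
      (∀ a b : ℤ, a • e + b • e' = 0 → (r : ℤ) ∣ a ∧ (r : ℤ) ∣ b) ∧
      (n : ℤ) • P = 0 ∧ (n : ℤ) • P' = 0 ∧
      ((n / r : ℕ) : ℤ) • P = e ∧ ((n / r : ℕ) : ℤ) • P' = e' := by
    intro r hr
    obtain ⟨hrp, hrn, -⟩ := Nat.mem_primeFactors.mp hr
    obtain ⟨e, e', he, he', hind⟩ := exists_independent_pair_prime hrp (h r hrn)
    obtain ⟨m, rfl⟩ := hrn
    rw [Nat.mul_div_cancel_left m hrp.pos]
    have hk : ∀ k ∈ ({m, r, m * r} : Set ℕ), Nat.card (Submodule.torsionBy ℤ A k) = k ^ 2 := by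
      simp only [Set.mem_insert_iff, Set.mem_singleton_iff]
      rintro k (rfl | rfl | rfl)
      · exact h _ (dvd_mul_left _ _)
      · exact h _ (dvd_mul_right _ _)
      · exact h _ (mul_comm m r ▸ dvd_rfl)
    obtain ⟨P, hP, hP'⟩ := exists_zsmul_eq_of_card (right_ne_zero_of_mul hn) hrp.ne_zero hk he
    obtain ⟨Q, hQ, hQ'⟩ := exists_zsmul_eq_of_card (right_ne_zero_of_mul hn) hrp.ne_zero hk he'
    exact ⟨e, e', P, Q, he, he', hind, mul_comm m r ▸ hP, mul_comm m r ▸ hQ, hP', hQ'⟩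
  choose! e e' P P' he he' hind hP hP' hPe hP'e using key
  -- `c r` is the prime-to-`r` part of `n`.
  set c : ℕ → ℕ := fun r ↦ n / r ^ n.factorization r with hc
  refine ⟨∑ r ∈ n.primeFactors, (c r : ℤ) • P r, ∑ r ∈ n.primeFactors, (c r : ℤ) • P' r,
    ?_, ?_, ?_⟩
  · rw [Finset.smul_sum]
    exact Finset.sum_eq_zero fun r hr ↦ by rw [smul_comm, hP r hr, smul_zero]
  · rw [Finset.smul_sum]
    exact Finset.sum_eq_zero fun r hr ↦ by rw [smul_comm, hP' r hr, smul_zero]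
  intro a b hab
  have main : ∀ d, d ∣ n → (d : ℤ) ∣ a ∧ (d : ℤ) ∣ b := by
    intro d
    induction d using Nat.strong_induction_on with
    | _ d ih =>
    intro hd
    rcases eq_or_ne d 1 with rfl | hd1
    · simp
    obtain ⟨p, hp, d', rfl⟩ := Nat.exists_prime_and_dvd hd1
    have hd' : d' ≠ 0 := right_ne_zero_of_mul (ne_zero_of_dvd_ne_zero hn hd)
    obtain ⟨⟨a', rfl⟩, ⟨b', rfl⟩⟩ :=
      ih d' (lt_mul_left (Nat.pos_of_ne_zero hd') hp.one_lt) ((dvd_mul_left d' p).trans hd)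
    have hpn : p ∣ n := (dvd_mul_right p d').trans hd
    have hpmem : p ∈ n.primeFactors := Nat.mem_primeFactors.mpr ⟨hp, hpn, hn⟩
    obtain ⟨m, rfl⟩ := hd
    have hnp : p * d' * m / p = d' * m := by rw [mul_assoc, Nat.mul_div_cancel_left _ hp.pos]
    have hsum : ∀ Q : ℕ → A, (∀ r ∈ (p * d' * m).primeFactors, ((p * d' * m : ℕ) : ℤ) • Q r = 0) →
        ((d' * m : ℕ) : ℤ) • ∑ r ∈ (p * d' * m).primeFactors, (c r : ℤ) • Q r =
          (c p : ℤ) • (((d' * m : ℕ) : ℤ) • Q p) := by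
      intro Q hQ
      rw [Finset.smul_sum, Finset.sum_eq_single p, smul_comm]
      · intro r hr hrp
        obtain ⟨hrprime, hrn, -⟩ := Nat.mem_primeFactors.mp hr
        have hpc : p ∣ c r := by
          have h1 : p ∣ r ^ (p * d' * m).factorization r * c r := by
            rw [hc, Nat.ordProj_mul_ordCompl_eq_self]; exact hpn
          exact (Nat.Coprime.pow_right _ ((Nat.coprime_primes hp hrprime).mpr hrp.symm)).dvd_of_dvd_mul_left h1
        obtain ⟨q, hq⟩ := hpc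
        rw [smul_smul, hq, show ((d' * m : ℕ) : ℤ) * (p * q : ℕ) = (q : ℤ) * (p * d' * m : ℕ) by
          push_cast; ring, mul_smul, hQ r hr, smul_zero]
      · exact fun h ↦ absurd hpmem h
    have e1 : ((d' * m : ℕ) : ℤ) • P p = e p := hnp ▸ hPe p hpmem
    have e2 : ((d' * m : ℕ) : ℤ) • P' p = e' p := hnp ▸ hP'e p hpmem
    have h0 := congrArg (fun x ↦ (m : ℤ) • x) hab
    simp only [smul_zero, smul_add, smul_smul] at h0
    rw [show (m : ℤ) * ((d' : ℤ) * a') = a' * ((d' * m : ℕ) : ℤ) by push_cast; ring,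
      show (m : ℤ) * ((d' : ℤ) * b') = b' * ((d' * m : ℕ) : ℤ) by push_cast; ring,
      mul_smul, mul_smul, hsum P hP, hsum P' hP', e1, e2, smul_smul, smul_smul] at h0
    obtain ⟨ha, hb⟩ := hind p hpmem _ _ h0
    have hcp : ¬ (p : ℤ) ∣ (c p : ℤ) := by
      rw [Int.natCast_dvd_natCast]; exact Nat.not_dvd_ordCompl hp hn
    have hpZ : Prime (p : ℤ) := Nat.prime_iff_prime_int.mp hp
    obtain ⟨a'', rfl⟩ := (hpZ.dvd_or_dvd ha).resolve_right hcp
    obtain ⟨b'', rfl⟩ := (hpZ.dvd_or_dvd hb).resolve_right hcp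
    exact ⟨⟨a'', by push_cast; ring⟩, ⟨b'', by push_cast; ring⟩⟩
  exact main n dvd_rfl

/-- If `#A[d] = d ^ 2` for all `d ∣ n`, then `A[n] ≅ (ℤ/n)²`. -/
theorem nonempty_addEquiv_of_card {n : ℕ} (hn : n ≠ 0)
    (h : ∀ d, d ∣ n → Nat.card (Submodule.torsionBy ℤ A d) = d ^ 2) :
    Nonempty (Submodule.torsionBy ℤ A n ≃+ (Fin 2 → ZMod n)) := by
  obtain ⟨P, Q, hP, hQ, hind⟩ := exists_independent_pair hn h
  have : NeZero n := ⟨hn⟩
  set T := Submodule.torsionBy ℤ A n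
  have hT : ∀ t : T, ((zmultiplesHom T) t) (n : ℤ) = 0 := fun t ↦
    Submodule.smul_torsionBy (n : ℤ) t
  let f : (Fin 2 → ZMod n) →+ T :=
    (ZMod.lift n ⟨zmultiplesHom T ⟨P, hP⟩, hT _⟩).comp (Pi.evalAddMonoidHom _ 0) +
      (ZMod.lift n ⟨zmultiplesHom T ⟨Q, hQ⟩, hT _⟩).comp (Pi.evalAddMonoidHom _ 1)
  have hinj : Function.Injective f := by
    rw [injective_iff_map_eq_zero]
    intro v hv
    obtain ⟨a, ha⟩ := ZMod.intCast_surjective (v 0)
    obtain ⟨b, hb⟩ := ZMod.intCast_surjective (v 1)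
    have hab : a • P + b • Q = 0 := by
      simpa [f, ← ha, ← hb, ZMod.lift_coe, Subtype.ext_iff] using hv
    obtain ⟨hna, hnb⟩ := hind a b hab
    funext i
    fin_cases i
    · simpa [← ha] using (ZMod.intCast_zmod_eq_zero_iff_dvd a n).mpr hna
    · simpa [← hb] using (ZMod.intCast_zmod_eq_zero_iff_dvd b n).mpr hnb
  have : Finite T := Nat.finite_of_card_ne_zero (by rw [h n dvd_rfl]; exact pow_ne_zero 2 hn)
  have hbij : Function.Bijective f := by
    refine hinj.bijective_of_nat_card_le ?_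
    rw [h n dvd_rfl, Nat.card_fun, Nat.card_zmod, Nat.card_fin]
  exact ⟨(AddEquiv.ofBijective f hbij).symm⟩

end Fermat.Agent.ECTorsion
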