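import Fermat.Agent.ECTorsion.MulFormula
import Fermat.Agent.ECTorsion.AbelianTorsion
import Mathlib.Algebra.Module.Torsion.Basic
import Mathlib.FieldTheory.Separable
import Mathlib.FieldTheory.IsAlgClosed.AlgebraicClosure

/-!
# Torsion of elliptic curves in characteristic prime to `n`

All statements take `hΔ : W.Δ ≠ 0` and `hn : (n : F) ≠ 0`; every characteristic is allowed.
-/

namespace Fermat.Agent.ECTorsion

open Polynomial WeierstrassCurve WeierstrassCurve.Affine

variable {F : Type*} [Field F] [DecidableEq F] {W : WeierstrassCurve.Affine F}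

omit [DecidableEq F] in
lemma exists_equation [IsAlgClosed F] (W : WeierstrassCurve.Affine F) (x : F) :
    ∃ y, W.Equation x y := by
  obtain ⟨y, hy⟩ := IsAlgClosed.exists_root
    (C (1 : F) * X ^ 2 + C (W.a₁ * x + W.a₃) * X
      + C (-(x ^ 3 + W.a₂ * x ^ 2 + W.a₄ * x + W.a₆)))
    (by rw [degree_quadratic one_ne_zero]; decide)
  refine ⟨y, (equation_iff x y).mpr ?_⟩
  simp only [IsRoot.def, eval_add, eval_mul, eval_pow, eval_X, eval_C] at hy
  linear_combination hy

omit [DecidableEq F] in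
lemma Ψ₂Sq_ne_zero_of_Δ_ne_zero (hΔ : W.Δ ≠ 0) : W.Ψ₂Sq ≠ 0 := by
  intro h
  by_cases h2 : (2 : F) = 0
  · have h2' := congrArg (coeff · 2) h
    have h0 := congrArg (coeff · 0) h
    simp [Ψ₂Sq, coeff_X, coeff_C] at h2' h0
    refine hΔ ?_
    rw [WeierstrassCurve.Δ, h2', h0]
    linear_combination (-4 * W.b₄ ^ 3) * h2
  · exact W.Ψ₂Sq_ne_zero (fun h4 ↦ h2 (mul_self_eq_zero.mp (by linear_combination h4))) h

omit [DecidableEq F] in
lemma isCoprime_Φ_ΨSq_of_isAlgClosed [IsAlgClosed F] (hΔ : W.Δ ≠ 0) (n : ℤ) :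
    IsCoprime (W.Φ n) (W.ΨSq n) := by
  classical
  refine (Polynomial.isCoprime_iff_aeval_ne_zero_of_isAlgClosed F F _ _).mpr fun x ↦ ?_
  simp only [coe_aeval_eq_eval]
  by_contra! hroot
  obtain ⟨hΦ, hS⟩ := hroot
  obtain ⟨y, hy⟩ := exists_equation W x
  have h := (equation_iff_nonsingular_of_Δ_ne_zero hΔ).mp hy
  have hn := (zsmul_some_eq_zero_iff_ΨSq h n).mpr hS
  rw [ΨSq_eval_eq hy, sq_eq_zero_iff] at hS
  rw [Φ_eval_eq hy, hS] at hΦ
  have hP0 : Point.some x y h ≠ 0 := Point.some_ne_zero h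
  rcases mul_eq_zero.mp (show psiAt W x y (n + 1) * psiAt W x y (n - 1) = 0 by
    linear_combination -hΦ) with h1 | h1 <;>
    rw [← evalEval_ψ_eq_psiAt, ← zsmul_some_eq_zero_iff h] at h1
  · rw [add_smul, hn, zero_add, one_smul] at h1
    exact hP0 h1
  · rw [sub_smul, hn, zero_sub, one_smul, neg_eq_zero] at h1
    exact hP0 h1

omit [DecidableEq F] in
theorem isCoprime_Φ_ΨSq (hΔ : W.Δ ≠ 0) (n : ℤ) : IsCoprime (W.Φ n) (W.ΨSq n) := by
  set f := algebraMap F (AlgebraicClosure F)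
  rw [← Polynomial.isCoprime_map f, ← WeierstrassCurve.map_Φ, ← WeierstrassCurve.map_ΨSq]
  exact isCoprime_Φ_ΨSq_of_isAlgClosed
    (by rw [WeierstrassCurve.map_Δ]; exact (_root_.map_ne_zero f).mpr hΔ) n

omit [DecidableEq F] in
/-- The Wronskian of `Φ n` and `ΨSq n` is nonzero. -/
lemma wronskian_Φ_ΨSq_ne_zero {n : ℕ} (hn : (n : F) ≠ 0) :
    derivative (W.Φ n) * W.ΨSq n - W.Φ n * derivative (W.ΨSq n) ≠ 0 := by
  intro h
  obtain ⟨N, hN⟩ : ∃ N, n ^ 2 = N + 1 :=
    Nat.exists_eq_succ_of_ne_zero (pow_ne_zero 2 fun h ↦ hn (by rw [h, Nat.cast_zero]))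
  have hΦ : (W.Φ (n : ℤ)).natDegree ≤ N + 1 := by
    simpa [hN] using W.natDegree_Φ_le (n : ℤ)
  have hS : (W.ΨSq (n : ℤ)).natDegree ≤ N := by
    simpa [hN] using W.natDegree_ΨSq_le (n : ℤ)
  have cΦ : (W.Φ (n : ℤ)).coeff (N + 1) = 1 := by simpa [hN] using W.coeff_Φ (n : ℤ)
  have cS : (W.ΨSq (n : ℤ)).coeff N = (n : F) ^ 2 := by
    simpa [hN] using W.coeff_ΨSq (n : ℤ)
  have hΦ' : (derivative (W.Φ (n : ℤ))).natDegree ≤ N :=
    (natDegree_derivative_le _).trans (by omega)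
  have key : ((n : F) ^ 2) * (n : F) ^ 2 - (N : F) * (n : F) ^ 2 = 0 := by
    rcases Nat.eq_zero_or_pos N with rfl | hNpos
    · have h' : derivative (W.ΨSq (n : ℤ)) = 0 := by
        rw [eq_C_of_natDegree_le_zero hS, derivative_C]
      rw [h', mul_zero, sub_zero] at h
      have := congrArg (coeff · (0 + 0)) h
      simp only [coeff_mul_add_eq_of_natDegree_le hΦ' hS, coeff_derivative, cΦ, cS,
        coeff_zero] at this
      simp only [zero_add] at hN
      have hn1 : (n : F) ^ 2 = 1 := by exact_mod_cast congrArg (Nat.cast : ℕ → F) hN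
      push_cast at this
      rw [hn1] at this ⊢
      simpa using this
    · obtain ⟨M, rfl⟩ : ∃ M, N = M + 1 := ⟨N - 1, by omega⟩
      have hS' : (derivative (W.ΨSq (n : ℤ))).natDegree ≤ M :=
        (natDegree_derivative_le _).trans (by omega)
      have := congrArg (coeff · (M + 1 + (M + 1))) h
      simp only [coeff_sub, coeff_mul_add_eq_of_natDegree_le hΦ' hS, coeff_zero] at this
      rw [show M + 1 + (M + 1) = M + 1 + 1 + M by ring,
        coeff_mul_add_eq_of_natDegree_le hΦ hS', coeff_derivative, coeff_derivative, cΦ, cS] at this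
      have hn2 : (n : F) ^ 2 = M + 1 + 1 := by exact_mod_cast congrArg (Nat.cast : ℕ → F) hN
      push_cast at this ⊢
      linear_combination this + ((n : F) ^ 2) * hn2
  have hn2 : (n : F) ^ 2 = N + 1 := by exact_mod_cast congrArg (Nat.cast : ℕ → F) hN
  exact pow_ne_zero 2 hn (by linear_combination key - (n : F) ^ 2 * hn2)

lemma mem_torsionBy_iff_zsmul (P : W.Point) (n : ℕ) :
    P ∈ Submodule.torsionBy ℤ W.Point n ↔ (n : ℤ) • P = 0 :=
  Iff.rfl

/-- The `x`-coordinate of a nonzero `n`-torsion point is a root of `ΨSq n`, and conversely. -/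
theorem some_mem_torsionBy_iff {x y : F} (h : W.Nonsingular x y) (n : ℕ) :
    Point.some x y h ∈ Submodule.torsionBy ℤ W.Point n ↔ (W.ΨSq n).eval x = 0 :=
  (mem_torsionBy_iff_zsmul _ n).trans (zsmul_some_eq_zero_iff_ΨSq h n)

/-- `#E[n] = n ^ 2` over an algebraically closed field. -/
theorem natCard_torsionBy [IsAlgClosed F] (hΔ : W.Δ ≠ 0) {n : ℕ} (hn : (n : F) ≠ 0) :
    Nat.card (Submodule.torsionBy ℤ W.Point n) = n ^ 2 := by
  classical
  set Φ := W.Φ (n : ℤ)
  set S := W.ΨSq (n : ℤ)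
  set D := derivative Φ * S - Φ * derivative S
  have hD : D ≠ 0 := wronskian_Φ_ΨSq_ne_zero hn
  obtain ⟨c, hc⟩ := Infinite.exists_notMem_finset
    (W.Ψ₂Sq.roots.toFinset ∪ D.roots.toFinset.image fun r ↦ Φ.eval r / S.eval r)
  rw [Finset.mem_union, not_or] at hc
  obtain ⟨hc2, hcD⟩ := hc
  have hcop : ∀ r, Φ.eval r = 0 → S.eval r ≠ 0 := fun r h1 h2 ↦ by
    obtain ⟨u, v, huv⟩ := isCoprime_Φ_ΨSq hΔ (n : ℤ)
    have := congrArg (eval r) huv
    rw [eval_add, eval_mul, eval_mul, eval_one, h1, h2] at this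
    simp at this
  set f := Φ - C c * S
  have hn0 : n ≠ 0 := fun h ↦ hn (by rw [h, Nat.cast_zero])
  have hdeg : f.natDegree = n ^ 2 := by
    refine natDegree_eq_of_le_of_coeff_ne_zero ?_ ?_
    · refine (natDegree_sub_le _ _).trans (max_le ?_ ((natDegree_C_mul_le _ _).trans ?_))
      · simpa [Φ] using W.natDegree_Φ_le (n : ℤ)
      · exact (show S.natDegree ≤ n ^ 2 - 1 by simpa [S] using W.natDegree_ΨSq_le (n : ℤ)).trans
          (Nat.sub_le _ _)
    · have hlt : S.natDegree < n ^ 2 :=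
        (show S.natDegree ≤ n ^ 2 - 1 by simpa [S] using W.natDegree_ΨSq_le (n : ℤ)).trans_lt
          (Nat.sub_lt (pow_pos (Nat.pos_of_ne_zero hn0) 2) one_pos)
      have cΦ : Φ.coeff (n ^ 2) = 1 := by simpa [Φ] using W.coeff_Φ (n : ℤ)
      simp [f, cΦ, coeff_eq_zero_of_natDegree_lt hlt]
  have hf0 : f ≠ 0 := ne_zero_of_natDegree_gt (hdeg ▸ pow_pos (Nat.pos_of_ne_zero hn0) 2)
  have hroot : ∀ r, f.eval r = 0 → S.eval r ≠ 0 ∧ Φ.eval r = c * S.eval r := fun r hr ↦ by
    simp only [f, eval_sub, eval_mul, eval_C, sub_eq_zero] at hr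
    exact ⟨fun hs ↦ hcop r (by rw [hr, hs, mul_zero]) hs, hr⟩
  have hsep : f.Separable := by
    refine (Polynomial.isCoprime_iff_aeval_ne_zero_of_isAlgClosed F F _ _).mpr fun r ↦ ?_
    simp only [coe_aeval_eq_eval]
    by_contra! hr
    obtain ⟨hr, hr'⟩ := hr
    obtain ⟨hs, hΦr⟩ := hroot r hr
    refine hcD (Finset.mem_image.mpr ⟨r, Multiset.mem_toFinset.mpr ((mem_roots hD).mpr ?_), ?_⟩)
    · simp only [f, derivative_sub, derivative_C_mul, eval_sub, eval_mul, eval_C] at hr'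
      simp only [IsRoot.def, D, eval_sub, eval_mul]
      linear_combination S.eval r * hr' - (derivative S).eval r * hΦr
    · rw [hΦr, mul_div_cancel_right₀ _ hs]
  have hcard : f.roots.toFinset.card = n ^ 2 := by
    rw [Multiset.toFinset_card_of_nodup (nodup_roots hsep), IsAlgClosed.card_roots_eq_natDegree,
      hdeg]
  obtain ⟨y, hy⟩ := exists_equation W c
  have hQ := (equation_iff_nonsingular_of_Δ_ne_zero hΔ).mp hy
  set Q : W.Point := Point.some c y hQ with hQdef
  have hQne : Q ≠ -Q := by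
    intro h
    rw [hQdef, Point.neg_some] at h
    refine hc2 (Multiset.mem_toFinset.mpr ((mem_roots (Ψ₂Sq_ne_zero_of_Δ_ne_zero hΔ)).mpr ?_))
    rw [IsRoot.def, ← psiTwo_sq hy, ← (Point.some.inj h).2, sub_self, sq, mul_zero]
  have hiff : ∀ {x y'} (h : W.Nonsingular x y'), f.eval x = 0 →
      (n : ℤ) • Point.some x y' h = Q ∨ (n : ℤ) • Point.some x y' h = -Q := by
    intro x y' h hx
    obtain ⟨hs, hΦx⟩ := hroot x hx
    rcases hR : (n : ℤ) • Point.some x y' h with _ | ⟨x₁, y₁, h₁⟩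
    · exact absurd ((zsmul_some_eq_zero_iff_ΨSq h _).mp hR) hs
    · have := X_zsmul_some h _ hR
      exact Point.X_eq_iff.mp (mul_right_cancel₀ hs (this.trans hΦx))
  let g : {P : W.Point // (n : ℤ) • P = Q} → {r : F // r ∈ f.roots.toFinset} :=
    fun P ↦ match P with
    | ⟨0, hP⟩ => absurd ((smul_zero (n : ℤ)).symm.trans hP) (Point.some_ne_zero hQ).symm
    | ⟨Point.some x _ h, hP⟩ => ⟨x, by
        have := X_zsmul_some h _ hP
        rw [Multiset.mem_toFinset, mem_roots hf0, IsRoot.def]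
        simp only [f, Φ, S, eval_sub, eval_mul, eval_C, this, sub_self]⟩
  have hbij : Function.Bijective g := by
    constructor
    · rintro ⟨_ | ⟨x, y₁, h₁⟩, hP⟩ ⟨_ | ⟨x', y₂, h₂⟩, hP'⟩ heq
      any_goals
        first
          | exact absurd ((smul_zero (n : ℤ)).symm.trans hP) (Point.some_ne_zero hQ).symm
          | exact absurd ((smul_zero (n : ℤ)).symm.trans hP') (Point.some_ne_zero hQ).symm
      obtain rfl : x = x' := congrArg Subtype.val heq
      refine Subtype.ext ((Point.X_eq_iff.mp rfl).resolve_right fun h ↦ hQne ?_)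
      conv_lhs => rw [← hP, h, smul_neg, hP']
    · rintro ⟨r, hr⟩
      rw [Multiset.mem_toFinset, mem_roots hf0] at hr
      obtain ⟨y', hy'⟩ := exists_equation W r
      have h := (equation_iff_nonsingular_of_Δ_ne_zero hΔ).mp hy'
      rcases hiff h hr with h1 | h1
      · exact ⟨⟨_, h1⟩, rfl⟩
      · exact ⟨⟨Point.some r _ ((nonsingular_neg ..).mpr h), by
          rw [← Point.neg_some h, smul_neg, h1, neg_neg]⟩, rfl⟩
  have hcardS : Nat.card {P : W.Point // (n : ℤ) • P = Q} = n ^ 2 := by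
    rw [Nat.card_eq_of_bijective g hbij, Nat.card_eq_fintype_card, Fintype.card_coe, hcard]
  have : Nonempty {P : W.Point // (n : ℤ) • P = Q} :=
    (Nat.card_pos_iff.mp (hcardS ▸ pow_pos (Nat.pos_of_ne_zero hn0) 2)).1
  obtain ⟨P₀, hP₀⟩ := this
  rw [← hcardS]
  exact Nat.card_congr
    ⟨fun T ↦ ⟨T + P₀, by rw [smul_add, (mem_torsionBy_iff_zsmul _ n).mp T.2, zero_add, hP₀]⟩,
      fun P ↦ ⟨P - P₀, by rw [mem_torsionBy_iff_zsmul, smul_sub, P.2, hP₀, sub_self]⟩,
      fun T ↦ by simp, fun P ↦ by simp⟩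

/-- Base change to an algebraic closure, on torsion. -/
lemma exists_injective_torsionBy (W : WeierstrassCurve.Affine F) (n : ℕ)
    [DecidableEq (AlgebraicClosure F)] :
    ∃ φ : Submodule.torsionBy ℤ W.Point n →
        Submodule.torsionBy ℤ (W.map (algebraMap F (AlgebraicClosure F))).toAffine.Point n,
      Function.Injective φ := by
  let g : W.Point →+ (W.map (algebraMap F (AlgebraicClosure F))).toAffine.Point :=
    Point.map (W' := W) (F := F) (K := AlgebraicClosure F) (Algebra.ofId F (AlgebraicClosure F))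
  refine ⟨fun P ↦ ⟨g P, ?_⟩, fun P P' h ↦ Subtype.ext (Point.map_injective
    (f := Algebra.ofId F (AlgebraicClosure F)) (congrArg Subtype.val h))⟩
  show (n : ℤ) • g P = 0
  rw [← map_zsmul g, (mem_torsionBy_iff_zsmul _ n).mp P.2, map_zero]

omit [DecidableEq F] in
lemma map_algebraicClosure_Δ_ne_zero (hΔ : W.Δ ≠ 0) :
    (W.map (algebraMap F (AlgebraicClosure F))).Δ ≠ 0 := by
  rw [WeierstrassCurve.map_Δ]
  exact (_root_.map_ne_zero _).mpr hΔ

omit [DecidableEq F] in
lemma natCast_algebraicClosure_ne_zero {n : ℕ} (hn : (n : F) ≠ 0) :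
    (n : AlgebraicClosure F) ≠ 0 := by
  rw [← map_natCast (algebraMap F (AlgebraicClosure F))]
  exact (_root_.map_ne_zero _).mpr hn

/-- `E[n]` is finite over any field. -/
theorem finite_torsionBy (hΔ : W.Δ ≠ 0) {n : ℕ} (hn : (n : F) ≠ 0) :
    Finite (Submodule.torsionBy ℤ W.Point n) := by
  classical
  obtain ⟨φ, hφ⟩ := exists_injective_torsionBy W n
  have hc := natCard_torsionBy (W := (W.map (algebraMap F (AlgebraicClosure F))).toAffine)
    (map_algebraicClosure_Δ_ne_zero hΔ) (natCast_algebraicClosure_ne_zero hn)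
  have := Nat.finite_of_card_ne_zero
    (hc ▸ pow_ne_zero 2 fun h ↦ hn (by rw [h, Nat.cast_zero]))
  exact Finite.of_injective φ hφ

theorem natCard_torsionBy_le (hΔ : W.Δ ≠ 0) {n : ℕ} (hn : (n : F) ≠ 0) :
    Nat.card (Submodule.torsionBy ℤ W.Point n) ≤ n ^ 2 := by
  classical
  obtain ⟨φ, hφ⟩ := exists_injective_torsionBy W n
  have hc := natCard_torsionBy (W := (W.map (algebraMap F (AlgebraicClosure F))).toAffine)
    (map_algebraicClosure_Δ_ne_zero hΔ) (natCast_algebraicClosure_ne_zero hn)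
  have := Nat.finite_of_card_ne_zero
    (hc ▸ pow_ne_zero 2 fun h ↦ hn (by rw [h, Nat.cast_zero]))
  exact hc ▸ Nat.card_le_card_of_injective φ hφ

omit [DecidableEq F] in
lemma natCast_ne_zero_of_dvd {d n : ℕ} (hd : d ∣ n) (hn : (n : F) ≠ 0) : (d : F) ≠ 0 := by
  obtain ⟨m, rfl⟩ := hd
  rw [Nat.cast_mul] at hn
  exact left_ne_zero_of_mul hn

/-- `E[n] ≅ (ℤ/n)²` over an algebraically closed field. -/
theorem nonempty_torsionBy_addEquiv [IsAlgClosed F] (hΔ : W.Δ ≠ 0) {n : ℕ} (hn : (n : F) ≠ 0) :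
    Nonempty (Submodule.torsionBy ℤ W.Point n ≃+ (Fin 2 → ZMod n)) :=
  nonempty_addEquiv_of_card (fun h ↦ hn (by rw [h, Nat.cast_zero]))
    fun _ hd ↦ natCard_torsionBy hΔ (natCast_ne_zero_of_dvd hd hn)

/-- Two points of order `n` generating `E[n]` freely. -/
theorem exists_independent_torsion_pair [IsAlgClosed F] (hΔ : W.Δ ≠ 0) {n : ℕ}
    (hn : (n : F) ≠ 0) :
    ∃ P Q : W.Point, (n : ℤ) • P = 0 ∧ (n : ℤ) • Q = 0 ∧
      ∀ a b : ℤ, a • P + b • Q = 0 → (n : ℤ) ∣ a ∧ (n : ℤ) ∣ b :=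
  exists_independent_pair (fun h ↦ hn (by rw [h, Nat.cast_zero]))
    fun _ hd ↦ natCard_torsionBy hΔ (natCast_ne_zero_of_dvd hd hn)

theorem exists_addOrderOf_eq [IsAlgClosed F] (hΔ : W.Δ ≠ 0) {n : ℕ} (hn : (n : F) ≠ 0) :
    ∃ P : W.Point, addOrderOf P = n := by
  obtain ⟨P, Q, hP, -, hind⟩ := exists_independent_torsion_pair hΔ hn
  refine ⟨P, Nat.dvd_antisymm ?_ ?_⟩
  · exact Int.natCast_dvd_natCast.mp (addOrderOf_dvd_iff_zsmul_eq_zero.mpr hP)
  · refine Int.natCast_dvd_natCast.mp (hind (addOrderOf P : ℤ) 0 ?_).1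
    rw [zero_smul, add_zero, natCast_zsmul, addOrderOf_nsmul_eq_zero]

lemma separable_and_coprime_preΨ'_of_isAlgClosed [IsAlgClosed F] (hΔ : W.Δ ≠ 0) {n : ℕ}
    (hn : (n : F) ≠ 0) : (W.preΨ' n).Separable ∧ IsCoprime (W.preΨ' n) W.Ψ₂Sq := by
  classical
  set f := W.preΨ' n
  set d := if Even n then 2 else 1 with hd
  have hn0 : n ≠ 0 := fun h ↦ hn (by rw [h, Nat.cast_zero])
  have hdn : d ∣ n := by
    rw [hd]; split_ifs with h
    · exact even_iff_two_dvd.mp h
    · exact one_dvd n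
  have hdF : (d : F) ≠ 0 := natCast_ne_zero_of_dvd hdn hn
  have hf0 : f ≠ 0 := W.preΨ'_ne_zero hn
  have hdeg : f.natDegree = (n ^ 2 - d ^ 2) / 2 := by
    rw [show f.natDegree = _ from W.natDegree_preΨ' hn, hd]
    split_ifs <;> norm_num
  have hTn := natCard_torsionBy hΔ hn
  have hTd := natCard_torsionBy hΔ hdF
  have : Finite (Submodule.torsionBy ℤ W.Point n) := finite_torsionBy hΔ hn
  have : Finite (Submodule.torsionBy ℤ W.Point d) := finite_torsionBy hΔ hdF
  set Tn : Set W.Point := {P | (n : ℤ) • P = 0} with hTndef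
  set Td : Set W.Point := {P | (d : ℤ) • P = 0} with hTddef
  have hTn' : Tn.ncard = n ^ 2 := by rw [← Nat.card_coe_set_eq]; exact hTn
  have hTd' : Td.ncard = d ^ 2 := by rw [← Nat.card_coe_set_eq]; exact hTd
  have hfinn : Tn.Finite := Set.toFinite (s := (Submodule.torsionBy ℤ W.Point n : Set W.Point))
  have hfind : Td.Finite := Set.toFinite (s := (Submodule.torsionBy ℤ W.Point d : Set W.Point))
  have hsub : Td ⊆ Tn := fun P hP ↦ by
    obtain ⟨m, hm⟩ := hdn
    show (n : ℤ) • P = 0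
    rw [hm, Nat.cast_mul, mul_comm, mul_smul, show (d : ℤ) • P = 0 from hP, smul_zero]
  set s : Finset W.Point := (hfinn.sdiff (t := Td)).toFinset with hs
  have hscard : s.card = n ^ 2 - d ^ 2 := by
    rw [hs, ← Set.ncard_eq_toFinset_card _ hfinn.sdiff, Set.ncard_sdiff hsub hfind, hTn', hTd']
  set R : Finset F := f.roots.toFinset.filter fun r ↦ W.Ψ₂Sq.eval r ≠ 0
  have hmaps : ∀ P ∈ s, P.xRep 0 ∈ R := by
    intro P hP
    rw [hs, Set.Finite.mem_toFinset] at hP
    obtain ⟨hPn, hPd⟩ := hP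
    rcases P with _ | ⟨x, y, h⟩
    · exact absurd (smul_zero (d : ℤ)) hPd
    have h1 : (W.ΨSq n).eval x = 0 := (zsmul_some_eq_zero_iff_ΨSq h n).mp hPn
    have h2 : W.Ψ₂Sq.eval x ≠ 0 := by
      intro h2
      have h2P : (2 : ℤ) • Point.some x y h = 0 := by
        rw [zsmul_some_eq_zero_iff_ΨSq h, WeierstrassCurve.ΨSq_two]; exact h2
      apply hPd
      show (d : ℤ) • Point.some x y h = 0
      rcases Nat.even_or_odd n with hev | ⟨k, hk⟩
      · rw [hd, if_pos hev]; exact h2P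
      · refine absurd ?_ (Point.some_ne_zero h)
        have : (n : ℤ) • Point.some x y h = 0 := hPn
        rw [hk, Nat.cast_add, add_smul, Nat.cast_mul, mul_comm, mul_smul,
          Nat.cast_ofNat, h2P, smul_zero, zero_add, Nat.cast_one, one_smul] at this
        exact this
    rw [WeierstrassCurve.ΨSq_ofNat, eval_mul, eval_pow] at h1
    have h3 : f.eval x = 0 := by
      rcases mul_eq_zero.mp h1 with h | h
      · exact sq_eq_zero_iff.mp h
      · split_ifs at h with hev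
        · exact absurd h h2
        · simp at h
    simp [R, Point.xRep_some, hf0, h2, h3]
  have hfib : ∀ r ∈ R, ({P ∈ s | P.xRep 0 = r} : Finset W.Point).card ≤ 2 := by
    intro r _
    rcases Finset.eq_empty_or_nonempty {P ∈ s | P.xRep 0 = r} with he | ⟨P, hP⟩
    · simp [he]
    refine (Finset.card_le_card (t := {P, -P}) fun P' hP' ↦ ?_).trans Finset.card_le_two
    rw [Finset.mem_filter] at hP hP'
    have hne : ∀ {P : W.Point}, P ∈ s → P ≠ 0 := fun hP h0 ↦ by
      rw [hs, Set.Finite.mem_toFinset] at hP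
      exact hP.2 (by rw [h0]; exact smul_zero _)
    rcases P with _ | ⟨x, y, h⟩
    · exact absurd rfl (hne hP.1)
    rcases P' with _ | ⟨x', y', h'⟩
    · exact absurd rfl (hne hP'.1)
    have hxx : x' = x := by simpa [Point.xRep_some] using hP'.2.trans hP.2.symm
    simp only [Finset.mem_insert, Finset.mem_singleton]
    exact Point.X_eq_iff.mp hxx
  have hle := Finset.card_le_mul_card_image_of_maps_to hmaps 2 hfib
  rw [hscard] at hle
  have hRle : R.card ≤ f.roots.toFinset.card := Finset.card_filter_le _ _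
  have hrootsle : f.roots.toFinset.card ≤ f.roots.card := Multiset.toFinset_card_le _
  have hrootsdeg : f.roots.card = f.natDegree := IsAlgClosed.card_roots_eq_natDegree
  have hnodup : f.roots.Nodup := by
    rw [← Multiset.toFinset_card_eq_card_iff_nodup]; omega
  refine ⟨(nodup_roots_iff_of_splits hf0 (IsAlgClosed.splits f)).mp hnodup, ?_⟩
  refine (Polynomial.isCoprime_iff_aeval_ne_zero_of_isAlgClosed F F _ _).mpr fun r ↦ ?_
  simp only [coe_aeval_eq_eval]
  by_contra! hr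
  have hR : R = f.roots.toFinset := Finset.eq_of_subset_of_card_le (Finset.filter_subset _ _)
    (by omega)
  have : r ∈ R := hR ▸ by simp [hf0, hr.1]
  exact (Finset.mem_filter.mp this).2 hr.2

omit [DecidableEq F] in
lemma separable_and_coprime_preΨ' (hΔ : W.Δ ≠ 0) {n : ℕ} (hn : (n : F) ≠ 0) :
    (W.preΨ' n).Separable ∧ IsCoprime (W.preΨ' n) W.Ψ₂Sq := by
  classical
  set f := algebraMap F (AlgebraicClosure F)
  rw [← Polynomial.separable_map f, ← Polynomial.isCoprime_map f,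
    ← WeierstrassCurve.map_preΨ', ← WeierstrassCurve.map_Ψ₂Sq]
  exact separable_and_coprime_preΨ'_of_isAlgClosed
    (map_algebraicClosure_Δ_ne_zero hΔ) (natCast_algebraicClosure_ne_zero hn)

omit [DecidableEq F] in
/-- The roots of `preΨ' n` are simple. -/
theorem separable_preΨ' (hΔ : W.Δ ≠ 0) {n : ℕ} (hn : (n : F) ≠ 0) :
    (W.preΨ' n).Separable :=
  (separable_and_coprime_preΨ' hΔ hn).1

omit [DecidableEq F] in
/-- `preΨ' n` has no root in common with the `2`-division polynomial. -/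
theorem isCoprime_preΨ'_Ψ₂Sq (hΔ : W.Δ ≠ 0) {n : ℕ} (hn : (n : F) ≠ 0) :
    IsCoprime (W.preΨ' n) W.Ψ₂Sq :=
  (separable_and_coprime_preΨ' hΔ hn).2

end Fermat.Agent.ECTorsion
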