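import Mathlib.NumberTheory.EllipticDivisibilitySequence
import Mathlib.RingTheory.MvPolynomial.Basic
import Mathlib.Algebra.MvPolynomial.Eval
import Mathlib.Algebra.MvPolynomial.Equiv
import Mathlib.Tactic.IntervalCases

/-!
# Normalised elliptic divisibility sequences are elliptic sequences

`W (a + b) * W (a - b)` and its odd companion satisfy Ward's relations. The proof is by strong
induction on `a + b`: the four-index Pfaffian relation reduces each relation to the defining even
and odd relations and to relations of smaller weight.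
-/

namespace Fermat.Agent.ECTorsion

section Abstract

variable {R : Type*} [CommRing R] {W : ℤ → R}

variable (W) in
/-- Ward's relation with pivot `(1, 0)`. -/
def ellRel (a b : ℤ) : R :=
  W (a + b) * W (a - b) - W (a + 1) * W (a - 1) * W b ^ 2 + W (b + 1) * W (b - 1) * W a ^ 2

variable (W) in
/-- Ward's relation for half integers. -/
def ellRelOdd (a b : ℤ) : R :=
  W 2 * W (a + b + 1) * W (a - b) - W (a + 2) * W (a - 1) * W (b + 1) * W b
    + W (a + 1) * W a * W (b + 2) * W (b - 1)

variable (hodd : ∀ n, W (-n) = -W n)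
include hodd

lemma ellRel_neg_right (a b : ℤ) : ellRel W a (-b) = ellRel W a b := by
  simp only [ellRel]
  rw [show -b + 1 = -(b - 1) by ring, show -b - 1 = -(b + 1) by ring, hodd b, hodd (b - 1),
    hodd (b + 1), sub_neg_eq_add a b, ← sub_eq_add_neg a b]
  ring

lemma ellRel_swap (a b : ℤ) : ellRel W b a = -ellRel W a b := by
  simp only [ellRel]
  rw [show b - a = -(a - b) by ring, hodd (a - b), add_comm b a]
  ring

lemma ellRelOdd_neg_right (a b : ℤ) : ellRelOdd W a (-b - 1) = ellRelOdd W a b := by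
  simp only [ellRelOdd]
  rw [show -b - 1 + 1 = -b by ring, show -b - 1 + 2 = -(b - 1) by ring,
    show -b - 1 - 1 = -(b + 2) by ring, show -b - 1 = -(b + 1) by ring, hodd b, hodd (b - 1),
    hodd (b + 1), hodd (b + 2), show a + -(b + 1) + 1 = a - b by ring,
    show a - -(b + 1) = a + b + 1 by ring]
  ring

lemma ellRelOdd_swap (a b : ℤ) : ellRelOdd W b a = -ellRelOdd W a b := by
  simp only [ellRelOdd]
  rw [show b - a = -(a - b) by ring, hodd (a - b), add_comm b a]
  ring

omit hodd in
/-- Plücker relation for `ellRel`. -/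
lemma plucker_ellRel {i j k l : ℤ} (h₁ : ellRel W i j = 0) (h₂ : ellRel W k l = 0)
    (h₃ : ellRel W i k = 0) (h₄ : ellRel W j l = 0) (h₅ : ellRel W i l = 0)
    (h₆ : ellRel W j k = 0) :
    W (i + j) * W (i - j) * (W (k + l) * W (k - l))
      - W (i + k) * W (i - k) * (W (j + l) * W (j - l))
      + W (i + l) * W (i - l) * (W (j + k) * W (j - k)) = 0 := by
  have aux : ∀ x y : ℤ, ellRel W x y = 0 → W (x + y) * W (x - y) =
      W (x + 1) * W (x - 1) * W y ^ 2 - W (y + 1) * W (y - 1) * W x ^ 2 :=
    fun x y h ↦ by rw [ellRel] at h; linear_combination h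
  rw [aux _ _ h₁, aux _ _ h₂, aux _ _ h₃, aux _ _ h₄, aux _ _ h₅, aux _ _ h₆]
  ring

omit hodd in
/-- Plücker relation for `ellRelOdd`. -/
lemma plucker_ellRelOdd [IsDomain R] (h2 : W 2 ≠ 0) {i j k l : ℤ} (h₁ : ellRelOdd W i j = 0)
    (h₂ : ellRelOdd W k l = 0) (h₃ : ellRelOdd W i k = 0) (h₄ : ellRelOdd W j l = 0)
    (h₅ : ellRelOdd W i l = 0) (h₆ : ellRelOdd W j k = 0) :
    W (i + j + 1) * W (i - j) * (W (k + l + 1) * W (k - l))
      - W (i + k + 1) * W (i - k) * (W (j + l + 1) * W (j - l))
      + W (i + l + 1) * W (i - l) * (W (j + k + 1) * W (j - k)) = 0 := by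
  have aux : ∀ x y : ℤ, ellRelOdd W x y = 0 → W 2 * (W (x + y + 1) * W (x - y)) =
      W (x + 2) * W (x - 1) * (W (y + 1) * W y) - W (x + 1) * W x * (W (y + 2) * W (y - 1)) :=
    fun x y h ↦ by rw [ellRelOdd] at h; linear_combination h
  refine (mul_eq_zero.mp (?_ : W 2 ^ 2 * _ = 0)).resolve_left (pow_ne_zero _ h2)
  rw [mul_add, mul_sub, sq,
    mul_mul_mul_comm (W 2) (W 2) (W (i + j + 1) * W (i - j)) _, aux _ _ h₁, aux _ _ h₂,
    mul_mul_mul_comm (W 2) (W 2) (W (i + k + 1) * W (i - k)) _, aux _ _ h₃, aux _ _ h₄,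
    mul_mul_mul_comm (W 2) (W 2) (W (i + l + 1) * W (i - l)) _, aux _ _ h₅, aux _ _ h₆]
  ring

variable [IsDomain R] (h1 : W 1 = 1) (h2 : W 2 ≠ 0)
  (heven : ∀ m, W (2 * m) * W 2 =
    W (m - 1) ^ 2 * W m * W (m + 2) - W (m - 2) * W m * W (m + 1) ^ 2)
  (hodd' : ∀ m, W (2 * m + 1) = W (m + 2) * W m ^ 3 - W (m - 1) * W (m + 1) ^ 3)
include h1 h2 heven hodd'

omit h2 heven in
lemma ellRel_succ (k : ℤ) : ellRel W k (k - 1) = 0 := by
  have := hodd' (k - 1)
  simp only [ellRel]
  rw [show k - 1 + 2 = k + 1 by ring, show k - 1 + 1 = k by ring] at this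
  rw [show k - (k - 1) = 1 by ring, h1, show k + (k - 1) = 2 * (k - 1) + 1 by ring, this,
    show k - 1 + 1 = k by ring]
  ring

omit h2 hodd' in
lemma ellRelOdd_succ (k : ℤ) : ellRelOdd W k (k - 1) = 0 := by
  simp only [ellRelOdd]
  rw [show k - (k - 1) = 1 by ring, h1, show k + (k - 1) + 1 = 2 * k by ring,
    show k - 1 + 1 = k by ring, show k - 1 + 2 = k + 1 by ring, show k - 1 - 1 = k - 2 by ring]
  linear_combination heven k

private lemma rel_aux (n : ℕ) :
    (∀ a b : ℤ, 0 ≤ a → 0 ≤ b → a + b = n → ellRel W a b = 0) ∧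
      (∀ a b : ℤ, 0 ≤ a → 0 ≤ b → a + b + 1 = n → ellRelOdd W a b = 0) := by
  induction n using Nat.strong_induction_on with
  | _ n ih =>
  have h0 : W 0 = 0 := by
    have h := hodd' (-1)
    rw [show (2 : ℤ) * -1 + 1 = -1 by norm_num, show (-1 : ℤ) + 2 = 1 by norm_num,
      show (-1 : ℤ) - 1 = -2 by norm_num, show (-1 : ℤ) + 1 = 0 by norm_num, hodd 1, hodd 2, h1] at h
    have : W 2 * W 0 ^ 3 = 0 := by linear_combination -h
    exact eq_zero_of_pow_eq_zero ((mul_eq_zero.mp this).resolve_left h2)
  have hE : ∀ x y : ℤ, 0 ≤ x → 0 ≤ y → x + y < n → ellRel W x y = 0 := fun x y hx hy h ↦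
    (ih (x + y).toNat (by omega)).1 x y hx hy (by omega)
  have hE' : ∀ x y : ℤ, 0 ≤ x → y ≤ 0 → x - y < n → ellRel W x y = 0 := fun x y hx hy h ↦ by
    rw [← ellRel_neg_right hodd]; exact hE x (-y) hx (by omega) (by omega)
  have hO : ∀ x y : ℤ, 0 ≤ x → 0 ≤ y → x + y + 1 < n → ellRelOdd W x y = 0 := fun x y hx hy h ↦
    (ih (x + y + 1).toNat (by omega)).2 x y hx hy (by omega)
  have hO' : ∀ x y : ℤ, 0 ≤ x → y < 0 → x - y < n → ellRelOdd W x y = 0 := fun x y hx hy h ↦ by
    rw [← ellRelOdd_neg_right hodd]; exact hO x (-y - 1) hx (by omega) (by omega)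
  constructor
  · suffices key : ∀ a b : ℤ, 2 ≤ b → b < a → a + b = n → ellRel W a b = 0 by
      intro a b ha hb hab
      wlog hle : b ≤ a generalizing a b
      · rw [ellRel_swap hodd, this b a hb ha (by omega) (by omega), neg_zero]
      rcases (show b = 0 ∨ b = 1 ∨ b = a ∨ (2 ≤ b ∧ b < a) by omega) with h | h | h | ⟨h, h'⟩
      · subst h; simp only [ellRel, add_zero, sub_zero, h0, zero_add, zero_sub, hodd, h1]; ring
      · subst h; simp only [ellRel, show (1 : ℤ) + 1 = 2 by norm_num, sub_self, h0, h1]; ring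
      · subst h; simp only [ellRel, sub_self, h0]; ring
      · exact key a b h h' hab
    intro a b hb hba hab
    rcases Int.emod_two_eq_zero_or_one (a + b) with hpar | hpar
    · obtain ⟨k, c, rfl, rfl⟩ : ∃ k c : ℤ, a = k + c ∧ b = k - c :=
        ⟨(a + b) / 2, (a - b) / 2, by omega, by omega⟩
      have h := plucker_ellRelOdd h2 (i := k) (j := k - 1) (k := c) (l := -c)
        (ellRelOdd_succ hodd h1 heven k)
        (by rw [← ellRelOdd_neg_right hodd, neg_neg]; exact ellRelOdd_succ hodd h1 heven c)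
        (hO k c (by omega) (by omega) (by omega))
        (hO' (k - 1) (-c) (by omega) (by omega) (by omega))
        (hO' k (-c) (by omega) (by omega) (by omega))
        (hO (k - 1) c (by omega) (by omega) (by omega))
      simp only [ellRel]
      ring_nf at h ⊢
      rw [h1] at h
      linear_combination h
    · obtain ⟨k, c, rfl, rfl⟩ : ∃ k c : ℤ, a = k + c - 1 ∧ b = k - c :=
        ⟨(a + b + 1) / 2, (a - b + 1) / 2, by omega, by omega⟩
      have h := plucker_ellRel (i := k) (j := k - 1) (k := c) (l := 1 - c)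
        (ellRel_succ hodd h1 hodd' k)
        (by rw [← ellRel_neg_right hodd, neg_sub]; exact ellRel_succ hodd h1 hodd' c)
        (hE k c (by omega) (by omega) (by omega))
        (hE' (k - 1) (1 - c) (by omega) (by omega) (by omega))
        (hE' k (1 - c) (by omega) (by omega) (by omega))
        (hE (k - 1) c (by omega) (by omega) (by omega))
      simp only [ellRel]
      ring_nf at h ⊢
      rw [h1] at h
      linear_combination h
  · suffices key : ∀ a b : ℤ, 2 ≤ b → b < a → a + b + 1 = n → ellRelOdd W a b = 0 by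
      intro a b ha hb hab
      wlog hle : b ≤ a generalizing a b
      · rw [ellRelOdd_swap hodd, this b a hb ha (by omega) (by omega), neg_zero]
      rcases (show b = 0 ∨ b = 1 ∨ b = a ∨ (2 ≤ b ∧ b < a) by omega) with h | h | h | ⟨h, h'⟩
      · subst h; simp only [ellRelOdd, add_zero, sub_zero, zero_add, zero_sub, hodd, h1, h0]; ring
      · subst h
        simp only [ellRelOdd, show (1 : ℤ) + 1 = 2 by norm_num, sub_self, h0, h1, add_assoc]; ring
      · subst h; simp only [ellRelOdd, sub_self, h0]; ring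
      · exact key a b h h' hab
    intro a b hb hba hab
    rcases Int.emod_two_eq_zero_or_one (a + b) with hpar | hpar
    · obtain ⟨k, c, rfl, rfl⟩ : ∃ k c : ℤ, a = k + c - 2 ∧ b = k - c :=
        ⟨(a + b + 2) / 2, (a - b + 2) / 2, by omega, by omega⟩
      have h := plucker_ellRel (i := k) (j := k - 1) (k := c) (l := 2 - c)
        (ellRel_succ hodd h1 hodd' k)
        (by rw [← ellRel_neg_right hodd, neg_sub]; exact hE c (c - 2) (by omega) (by omega) (by omega))
        (hE k c (by omega) (by omega) (by omega))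
        (hE' (k - 1) (2 - c) (by omega) (by omega) (by omega))
        (hE' k (2 - c) (by omega) (by omega) (by omega))
        (hE (k - 1) c (by omega) (by omega) (by omega))
      simp only [ellRelOdd]
      ring_nf at h ⊢
      rw [h1] at h
      linear_combination h
    · obtain ⟨k, c, rfl, rfl⟩ : ∃ k c : ℤ, a = k + c - 1 ∧ b = k - c :=
        ⟨(a + b + 1) / 2, (a - b + 1) / 2, by omega, by omega⟩
      have hO'' : ∀ x : ℤ, 0 ≤ x → x + c + 1 ≤ n → x < k + c → 0 < x + (c - 2) + 2 →
          ellRelOdd W x (1 - c) = 0 := by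
        intro x hx hxn _ _
        rcases (show c = 1 ∨ 2 ≤ c by omega) with hc | hc
        · exact hO x (1 - c) hx (by omega) (by omega)
        · exact hO' x (1 - c) hx (by omega) (by omega)
      have h := plucker_ellRelOdd h2 (i := k) (j := k - 1) (k := c) (l := 1 - c)
        (ellRelOdd_succ hodd h1 heven k)
        (hO'' c (by omega) (by omega) (by omega) (by omega))
        (hO k c (by omega) (by omega) (by omega))
        (hO'' (k - 1) (by omega) (by omega) (by omega) (by omega))
        (hO'' k (by omega) (by omega) (by omega) (by omega))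
        (hO (k - 1) c (by omega) (by omega) (by omega))
      simp only [ellRelOdd]
      ring_nf at h ⊢
      rw [h1] at h
      linear_combination h

theorem ellRel_eq_zero (a b : ℤ) : ellRel W a b = 0 := by
  have key : ∀ x y : ℤ, 0 ≤ x → ellRel W x y = 0 := by
    intro x y hx
    rcases le_total 0 y with hy | hy
    · exact (rel_aux hodd h1 h2 heven hodd' (x + y).toNat).1 x y hx hy (by omega)
    · rw [← ellRel_neg_right hodd]
      exact (rel_aux hodd h1 h2 heven hodd' (x - y).toNat).1 x (-y) hx (by omega) (by omega)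
  rcases le_total 0 a with ha | ha
  · exact key a b ha
  · have := key (-a) b (by omega)
    have e := ellRel_swap hodd (-a) b
    rw [ellRel_neg_right hodd, this, neg_zero, ellRel_swap hodd, neg_eq_zero] at e
    exact e

end Abstract

section NormEDS

variable {R : Type*} [CommRing R] (b c d : R)

/-- A normalised EDS satisfies Ward's relation. -/
theorem normEDS_ellRel (m n : ℤ) : ellRel (normEDS b c d) m n = 0 := by
  set W : ℤ → MvPolynomial (Fin 3) ℤ :=
    normEDS (MvPolynomial.X 0) (MvPolynomial.X 1) (MvPolynomial.X 2) with hW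
  have h : ellRel W m n = 0 := ellRel_eq_zero (fun k ↦ normEDS_neg ..) (normEDS_one ..)
    (by rw [normEDS_two]; exact MvPolynomial.X_ne_zero 0)
    (fun k ↦ by
      have h := normEDS_even (MvPolynomial.X 0 : MvPolynomial (Fin 3) ℤ) (MvPolynomial.X 1)
        (MvPolynomial.X 2) k
      simpa only [normEDS_two] using h)
    (fun k ↦ normEDS_odd ..) m n
  have := congrArg (MvPolynomial.aeval (R := ℤ) ![b, c, d]) h
  simpa [ellRel, hW, map_normEDS] using this

theorem normEDS_add_mul_sub (m n : ℤ) :
    normEDS b c d (m + n) * normEDS b c d (m - n) =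
      normEDS b c d (m + 1) * normEDS b c d (m - 1) * normEDS b c d n ^ 2
        - normEDS b c d (n + 1) * normEDS b c d (n - 1) * normEDS b c d m ^ 2 := by
  have := normEDS_ellRel b c d m n
  rw [ellRel] at this
  linear_combination this

/-- The Somos-4 recurrence. -/
theorem normEDS_somos (n : ℤ) :
    normEDS b c d (n + 2) * normEDS b c d (n - 2) =
      b ^ 2 * (normEDS b c d (n + 1) * normEDS b c d (n - 1)) - c * normEDS b c d n ^ 2 := by
  have := normEDS_add_mul_sub b c d n 2
  rw [normEDS_two, show (2 : ℤ) + 1 = 3 by norm_num, show (2 : ℤ) - 1 = 1 by norm_num,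
    normEDS_three, normEDS_one] at this
  linear_combination this

/-- The identity sequence as a normalised EDS. -/
theorem normEDS_id (n : ℕ) : normEDS (2 : ℤ) 3 2 n = n := by
  induction n using normEDSRec' with
  | zero => simp
  | one => simp
  | two => simp
  | three => simp
  | four => simp
  | even m ih =>
    have h1 := ih (m + 1) (by omega)
    have h2 := ih (m + 2) (by omega)
    have h3 := ih (m + 3) (by omega)
    have h4 := ih (m + 4) (by omega)
    have h5 := ih (m + 5) (by omega)
    have h := normEDS_even (2 : ℤ) 3 2 ((m + 3 : ℕ) : ℤ)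
    push_cast at h h1 h2 h3 h4 h5 ⊢
    ring_nf at h h1 h2 h3 h4 h5 ⊢
    rw [h1, h2, h3, h4, h5] at h
    linarith
  | odd m ih =>
    have h1 := ih (m + 1) (by omega)
    have h2 := ih (m + 2) (by omega)
    have h3 := ih (m + 3) (by omega)
    have h4 := ih (m + 4) (by omega)
    have h := normEDS_odd (2 : ℤ) 3 2 ((m + 2 : ℕ) : ℤ)
    push_cast at h h1 h2 h3 h4 ⊢
    ring_nf at h h1 h2 h3 h4 ⊢
    rw [h1, h2, h3, h4] at h
    linarith

/-- The first integral of the Somos-4 recurrence. -/
theorem normEDS_invariant {e : R} (he : d + b ^ 4 = e * c) (n : ℤ) :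
    normEDS b c d (n + 2) * normEDS b c d (n - 1) ^ 2
      + normEDS b c d (n - 2) * normEDS b c d (n + 1) ^ 2 + b ^ 2 * normEDS b c d n ^ 3 =
      e * (normEDS b c d (n + 1) * normEDS b c d n * normEDS b c d (n - 1)) := by
  set B : MvPolynomial (Fin 3) ℤ := MvPolynomial.X 0
  set C : MvPolynomial (Fin 3) ℤ := MvPolynomial.X 1
  set E : MvPolynomial (Fin 3) ℤ := MvPolynomial.X 2
  set W : ℤ → MvPolynomial (Fin 3) ℤ := normEDS B C (E * C - B ^ 4) with hW
  let J : ℤ → MvPolynomial (Fin 3) ℤ := fun k ↦ W (k + 2) * W (k - 1) ^ 2 + W (k - 2) * W (k + 1) ^ 2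
    + B ^ 2 * W k ^ 3 - E * (W (k + 1) * W k * W (k - 1))
  have hne : ∀ k : ℕ, 0 < k → W k ≠ 0 := by
    intro k hk h
    have := congrArg (MvPolynomial.eval ![(2 : ℤ), 3, 6]) h
    simp only [hW, B, C, E, map_normEDS, map_sub, map_mul, map_pow, MvPolynomial.eval_X,
      map_zero] at this
    simp only [Matrix.cons_val_zero, Matrix.cons_val_one, Matrix.cons_val] at this
    rw [show (6 : ℤ) * 3 - 2 ^ 4 = 2 by norm_num, normEDS_id] at this
    omega
  have hJ : ∀ k : ℕ, J k = 0 := by
    intro k
    induction k using Nat.strong_induction_on with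
    | _ k ih =>
    rcases (show k = 0 ∨ k = 1 ∨ k = 2 ∨ 3 ≤ k by omega) with rfl | rfl | rfl | hk
    · simp only [J, hW, Nat.cast_zero, zero_add, zero_sub, normEDS_zero, normEDS_neg, normEDS_two,
        normEDS_one]
      ring
    · simp [J, hW]
      try ring
    · simp [J, hW]
      try ring
    · obtain ⟨j, rfl⟩ : ∃ j, k = j + 1 := ⟨k - 1, by omega⟩
      have h := ih j (by omega)
      have s1 := normEDS_somos B C (E * C - B ^ 4) (j : ℤ)
      have s2 := normEDS_somos B C (E * C - B ^ 4) ((j : ℤ) + 1)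
      rw [← hW] at s1 s2
      have : J ((j + 1 : ℕ)) * W ((j : ℤ) - 1) = 0 := by
        simp only [J] at h ⊢
        push_cast
        ring_nf at h s1 s2 ⊢
        linear_combination W (2 + j) * h + W (j : ℤ) ^ 2 * s2 - W (1 + j) ^ 2 * s1
      exact (mul_eq_zero.mp this).resolve_right (by
        rw [show ((j : ℤ) - 1) = ((j - 1 : ℕ) : ℤ) by omega]; exact hne _ (by omega))
  have hJ' : J n = 0 := by
    rcases Int.eq_nat_or_neg n with ⟨k, rfl | rfl⟩
    · exact hJ k
    · have := hJ k
      simp only [J, hW] at this ⊢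
      rw [show -(k : ℤ) + 2 = -(k - 2) by ring, show -(k : ℤ) - 1 = -(k + 1) by ring,
        show -(k : ℤ) - 2 = -(k + 2) by ring, show -(k : ℤ) + 1 = -(k - 1) by ring]
      simp only [normEDS_neg]
      linear_combination -this
  have := congrArg (MvPolynomial.aeval (R := ℤ) ![b, c, e]) hJ'
  simp [J, hW, B, C, E, map_normEDS, ← eq_sub_of_add_eq he] at this
  linear_combination this

end NormEDS

end Fermat.Agent.ECTorsion
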