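import Fermat.Agent.ECTorsion.EDS
import Mathlib.AlgebraicGeometry.EllipticCurve.DivisionPolynomial.Degree
import Mathlib.AlgebraicGeometry.EllipticCurve.Affine.Point
import Mathlib.FieldTheory.IsAlgClosed.Basic

/-!
# Multiplication formulas on Weierstrass curves

For a nonsingular point `P = (x, y)` on a Weierstrass curve over a field (any characteristic,
the curve itself may be singular): `n • P = 0 ↔ ψ_n(P) = 0`, and otherwise
`x(n • P) = Φ_n(x) / ΨSq_n(x)`.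
-/

namespace Fermat.Agent.ECTorsion

open Polynomial WeierstrassCurve WeierstrassCurve.Affine
open scoped Polynomial.Bivariate

section Values

variable {R : Type*} [CommRing R] (W : WeierstrassCurve.Affine R) (x y : R)

/-- The value of the `n`-th division polynomial at `(x, y)`. -/
noncomputable def psiAt (n : ℤ) : R :=
  normEDS (y - W.negY x y) (W.Ψ₃.eval x) (W.preΨ₄.eval x) n

lemma evalEval_ψ_eq_psiAt (n : ℤ) : (W.ψ n).evalEval x y = psiAt W x y n := by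
  rw [psiAt, WeierstrassCurve.ψ, ← coe_evalEvalRingHom, map_normEDS]
  simp only [coe_evalEvalRingHom, evalEval_C]
  rw [WeierstrassCurve.ψ₂, evalEval_polynomialY, negY]
  ring_nf

variable {W x y}

lemma psiTwo_sq (h : W.Equation x y) : (y - W.negY x y) ^ 2 = W.Ψ₂Sq.eval x := by
  rw [equation_iff] at h
  simp only [Ψ₂Sq, negY, b₂, b₄, b₆, eval_add, eval_mul, eval_pow, eval_X, eval_C]
  linear_combination 4 * h

lemma preΨ₄_add_psiTwo_pow (h : W.Equation x y) :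
    W.preΨ₄.eval x + (y - W.negY x y) ^ 4 =
      (6 * x ^ 2 + W.b₂ * x + W.b₄) * W.Ψ₃.eval x := by
  rw [show (y - W.negY x y) ^ 4 = ((y - W.negY x y) ^ 2) ^ 2 by ring, psiTwo_sq h]
  simp only [preΨ₄, Ψ₃, Ψ₂Sq, eval_add, eval_sub, eval_mul, eval_pow, eval_X, eval_C, eval_ofNat]
  linear_combination x ^ 2 * W.b_relation

lemma Ψ₃_eval_eq (h : W.Equation x y) :
    W.Ψ₃.eval x = (W.a₂ + 3 * x) * (y - W.negY x y) ^ 2
      - (3 * x ^ 2 + 2 * W.a₂ * x + W.a₄ - W.a₁ * y) ^ 2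
      - W.a₁ * (3 * x ^ 2 + 2 * W.a₂ * x + W.a₄ - W.a₁ * y) * (y - W.negY x y) := by
  rw [equation_iff] at h
  simp only [Ψ₃, negY, b₂, b₄, b₆, b₈, eval_add, eval_mul, eval_pow, eval_X, eval_C, eval_ofNat]
  linear_combination (-(W.a₁ ^ 2 + 4 * W.a₂ + 12 * x)) * h

lemma mk_evalEval_eq (h : W.Equation x y) {p q : R[X][Y]}
    (hpq : CoordinateRing.mk W p = CoordinateRing.mk W q) :
    p.evalEval x y = q.evalEval x y := by
  obtain ⟨r, hr⟩ := AdjoinRoot.mk_eq_mk.mp hpq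
  have := congrArg (evalEval x y) hr
  rwa [evalEval_sub, evalEval_mul, h, zero_mul, sub_eq_zero] at this

lemma ΨSq_eval_eq (h : W.Equation x y) (n : ℤ) : (W.ΨSq n).eval x = psiAt W x y n ^ 2 := by
  rw [← evalEval_ψ_eq_psiAt, ← evalEval_pow, ← evalEval_C x y]
  exact mk_evalEval_eq h (by rw [map_pow, CoordinateRing.mk_ψ, CoordinateRing.mk_Ψ_sq])

lemma Φ_eval_eq (h : W.Equation x y) (n : ℤ) : (W.Φ n).eval x =
    x * psiAt W x y n ^ 2 - psiAt W x y (n + 1) * psiAt W x y (n - 1) := by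
  rw [← evalEval_C x y (W.Φ n), ← mk_evalEval_eq h (CoordinateRing.mk_φ (W := W) n),
    WeierstrassCurve.φ]
  simp only [evalEval_sub, evalEval_mul, evalEval_pow, evalEval_C, eval_X, evalEval_ψ_eq_psiAt]

end Values

variable {F : Type*} [Field F] [DecidableEq F] {W : WeierstrassCurve.Affine F} {x y : F}

lemma psiTwo_ne_zero_or_Ψ₃_ne_zero (h : W.Nonsingular x y) :
    y - W.negY x y ≠ 0 ∨ W.Ψ₃.eval x ≠ 0 := by
  refine or_iff_not_imp_left.mpr fun hb ↦ ?_
  rw [not_not] at hb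
  rw [Ψ₃_eval_eq h.left, hb]
  have := ((nonsingular_iff x y).mp h).right
  rcases this with hN | hY
  · rw [show (W.a₂ + 3 * x) * 0 ^ 2 - (3 * x ^ 2 + 2 * W.a₂ * x + W.a₄ - W.a₁ * y) ^ 2
      - W.a₁ * (3 * x ^ 2 + 2 * W.a₂ * x + W.a₄ - W.a₁ * y) * 0 =
      -(3 * x ^ 2 + 2 * W.a₂ * x + W.a₄ - W.a₁ * y) ^ 2 by ring, neg_ne_zero]
    exact pow_ne_zero _ (sub_ne_zero.mpr hN.symm)
  · exact absurd (sub_eq_zero.mp hb) hY

lemma addX_add_addX_negY {x₁ x₂ y₁ y₂ : F} (h₁ : W.Equation x₁ y₁) (h₂ : W.Equation x₂ y₂)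
    (hx : x₁ ≠ x₂) :
    (W.addX x₁ x₂ (W.slope x₁ x₂ y₁ y₂) + W.addX x₁ x₂ (W.slope x₁ x₂ y₁ (W.negY x₂ y₂))) *
      (x₁ - x₂) ^ 2 =
    2 * (x₁ + x₂) * (x₁ * x₂) + W.b₂ * (x₁ * x₂) + W.b₄ * (x₁ + x₂) + W.b₆ := by
  rw [slope_of_X_ne hx, slope_of_X_ne hx]
  have hd := sub_ne_zero.mpr hx
  rw [equation_iff] at h₁ h₂
  simp only [addX, negY, b₂, b₄, b₆]
  field_simp
  linear_combination 2 * h₁ + 2 * h₂

/-- The inductive statement: `n • P = 0 ↔ ψ_n(P) = 0` and the formula for `x(n • P)`. -/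
def MulStatement (h : W.Nonsingular x y) (n : ℕ) : Prop :=
  ((n : ℤ) • Point.some x y h = 0 ↔ psiAt W x y n = 0) ∧
    ∀ (x' y' : F) (h' : W.Nonsingular x' y'), (n : ℤ) • Point.some x y h = Point.some x' y' h' →
      x' * psiAt W x y n ^ 2 =
        x * psiAt W x y n ^ 2 - psiAt W x y ((n : ℤ) + 1) * psiAt W x y ((n : ℤ) - 1)

lemma mulStatement_two (h : W.Nonsingular x y) : MulStatement h 2 := by
  have e2 : psiAt W x y 2 = y - W.negY x y := normEDS_two ..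
  rw [MulStatement, Nat.cast_ofNat, e2, two_zsmul]
  by_cases hb : y = W.negY x y
  · rw [Point.add_self_of_Y_eq hb]
    exact ⟨iff_of_true rfl (sub_eq_zero.mpr hb), fun x' y' h' e ↦ nomatch e⟩
  · rw [Point.add_self_of_Y_ne hb]
    have hb' := sub_ne_zero.mpr hb
    refine ⟨iff_of_false (Point.some_ne_zero _) hb', fun x' y' h' e ↦ ?_⟩
    obtain ⟨rfl, -⟩ := Point.some.inj e
    rw [show psiAt W x y (2 + 1) = W.Ψ₃.eval x from normEDS_three ..,
      show psiAt W x y (2 - 1) = 1 from normEDS_one .., Ψ₃_eval_eq h.left,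
      slope_of_Y_ne rfl hb]
    simp only [addX]
    field_simp
    ring

lemma mulStatement_succ (h : W.Nonsingular x y) {m : ℕ} (hm : 2 ≤ m)
    (ih : ∀ k ≤ m, MulStatement h k) : MulStatement h (m + 1) := by
  set P : W.Point := Point.some x y h with hP
  set u : ℤ → F := psiAt W x y with hu
  set b : F := y - W.negY x y with hbdef
  set c : F := W.Ψ₃.eval x with hcdef
  set e : F := 6 * x ^ 2 + W.b₂ * x + W.b₄ with hedef
  have somos : ∀ n : ℤ, u (n + 2) * u (n - 2) = b ^ 2 * (u (n + 1) * u (n - 1)) - c * u n ^ 2 :=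
    normEDS_somos b c _
  have inv : ∀ n : ℤ, u (n + 2) * u (n - 1) ^ 2 + u (n - 2) * u (n + 1) ^ 2 + b ^ 2 * u n ^ 3 =
      e * (u (n + 1) * u n * u (n - 1)) :=
    normEDS_invariant b c _ (preΨ₄_add_psiTwo_pow h.left)
  obtain ⟨hm0, hmX⟩ := ih m le_rfl
  obtain ⟨hl0, hlX⟩ := ih (m - 1) (by omega)
  rw [show ((m - 1 : ℕ) : ℤ) = (m : ℤ) - 1 by omega, ← hP, ← hu] at hl0 hlX
  rw [← hP, ← hu] at hm0 hmX
  rw [MulStatement, Nat.cast_succ, ← hP, ← hu, add_sub_cancel_right, add_assoc,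
    one_add_one_eq_two]
  have hP0 : P ≠ 0 := Point.some_ne_zero h
  have hsucc : ((m : ℤ) + 1) • P = (m : ℤ) • P + P := by rw [add_smul, one_smul]
  have hpred : ((m : ℤ) - 1) • P = (m : ℤ) • P + -P := by rw [sub_smul, one_smul, sub_eq_add_neg]
  by_cases hz : u m = 0
  · -- `m • P = 0`
    have hmP := hm0.mpr hz
    have hum : u (m - 1) ≠ 0 := fun h0 ↦ hP0 <| by
      have := hl0.mpr h0
      rwa [hpred, hmP, zero_add, neg_eq_zero] at this
    have hne : u (m + 1) ≠ 0 := by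
      intro h0
      rcases psiTwo_ne_zero_or_Ψ₃_ne_zero h with hb | hc
      · have := inv ((m : ℤ) - 1)
        rw [sub_add_cancel, hz, show (m : ℤ) - 1 + 2 = m + 1 by ring, h0] at this
        have : b ^ 2 * u ((m : ℤ) - 1) ^ 3 = 0 := by linear_combination this
        have hb0 : b = 0 := by simpa [hum] using this
        exact hb hb0
      · have := somos ((m : ℤ) - 1)
        rw [sub_add_cancel, hz, show (m : ℤ) - 1 + 2 = m + 1 by ring, h0] at this
        have : c * u ((m : ℤ) - 1) ^ 2 = 0 := by linear_combination this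
        exact hc (by simpa [hum] using this)
    rw [hsucc, hmP, zero_add]
    refine ⟨iff_of_false hP0 hne, fun x' y' h' e' ↦ ?_⟩
    obtain ⟨rfl, -⟩ := Point.some.inj e'
    rw [hz]
    ring
  obtain ⟨x', y', h', hmP⟩ : ∃ x' y' h', (m : ℤ) • P = Point.some x' y' h' := by
    rcases hQ : (m : ℤ) • P with _ | ⟨x', y', h'⟩
    · exact absurd (hm0.mp hQ) hz
    · exact ⟨x', y', h', rfl⟩
  have hx' := hmX x' y' h' hmP
  by_cases hl : u ((m : ℤ) - 1) = 0
  · -- `m • P = P`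
    have hlP := hl0.mpr hl
    have hmPP : (m : ℤ) • P = P := by rwa [hpred, add_neg_eq_zero] at hlP
    obtain ⟨hk0, -⟩ := ih (m - 2) (by omega)
    rw [show ((m - 2 : ℕ) : ℤ) = (m : ℤ) - 2 by omega, ← hP, ← hu] at hk0
    have hum : u ((m : ℤ) - 2) ≠ 0 := fun h0 ↦ hP0 <| by
      have := hk0.mpr h0
      rwa [sub_smul, hmPP, two_zsmul, sub_add_eq_sub_sub, sub_self, zero_sub, neg_eq_zero] at this
    have s0 := somos ((m : ℤ) - 1)
    have i0 := inv ((m : ℤ) - 1)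
    have s1 := somos (m : ℤ)
    rw [hl, sub_add_cancel, show (m : ℤ) - 1 + 2 = m + 1 by ring,
      show (m : ℤ) - 1 - 2 = m - 3 by ring, show (m : ℤ) - 1 - 1 = m - 2 by ring] at s0 i0
    rw [hl] at s1
    have key : u ((m : ℤ) + 1) ^ 2 * u ((m : ℤ) - 2) = -(b ^ 2 * u m ^ 3) := by
      apply mul_right_cancel₀ hum
      linear_combination u ((m : ℤ) + 1) * i0 - u (m : ℤ) ^ 2 * s0
    have hiff : u ((m : ℤ) + 1) = 0 ↔ b = 0 := by
      constructor <;> intro h0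
      · rw [h0] at key
        simpa [hz] using key
      · rw [h0] at key
        simpa [hum] using key
    rw [hsucc, hmPP, ← two_zsmul, hiff]
    obtain ⟨h20, h2X⟩ := mulStatement_two h
    rw [Nat.cast_ofNat, ← hP, ← hu, show u 2 = b from normEDS_two ..] at h20 h2X
    refine ⟨h20, fun x₂ y₂ h₂ e₂ ↦ ?_⟩
    have hx₂ := h2X x₂ y₂ h₂ e₂
    have hb : b ≠ 0 := fun h0 ↦ by rw [h20.mpr h0] at e₂; exact nomatch e₂
    rw [show u (2 + 1) = c from normEDS_three .., show u (2 - 1) = 1 from normEDS_one ..] at hx₂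
    apply mul_right_cancel₀ (mul_ne_zero hum (pow_ne_zero 2 hb))
    linear_combination (u ((m : ℤ) + 1) ^ 2 * u ((m : ℤ) - 2)) * hx₂ - c * key
      + b ^ 2 * u (m : ℤ) * s1
  obtain ⟨x₀, y₀, h₀, hlP⟩ : ∃ x₀ y₀ h₀, ((m : ℤ) - 1) • P = Point.some x₀ y₀ h₀ := by
    rcases hQ : ((m : ℤ) - 1) • P with _ | ⟨x₀, y₀, h₀⟩
    · exact absurd (hl0.mp hQ) hl
    · exact ⟨x₀, y₀, h₀, rfl⟩
  have hx₀ := hlX x₀ y₀ h₀ hlP
  rw [sub_add_cancel, show (m : ℤ) - 1 - 1 = m - 2 by ring] at hx₀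
  by_cases hn : u ((m : ℤ) + 1) = 0
  · rw [hn, zero_mul, sub_zero] at hx'
    have hxx := mul_right_cancel₀ (pow_ne_zero 2 hz) hx'
    rcases Point.X_eq_iff.mp hxx with h1 | h1 <;> rw [← hmP, ← hP] at h1
    · exact absurd (hl0.mp (by rw [hpred, h1, add_neg_cancel])) hl
    · have : ((m : ℤ) + 1) • P = 0 := by rw [hsucc, h1, neg_add_cancel]
      exact ⟨iff_of_true this hn, fun _ _ _ e' ↦ by rw [this] at e'; exact nomatch e'⟩
  have hxx : x' ≠ x := fun heq ↦ by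
    rw [heq] at hx'
    have : u ((m : ℤ) + 1) * u ((m : ℤ) - 1) = 0 := by linear_combination hx'
    simp [hn, hl] at this
  have hnP : ((m : ℤ) + 1) • P =
      Point.some _ _ (nonsingular_add h' h fun hxy ↦ hxx hxy.left) := by
    rw [hsucc, hmP, hP, Point.add_of_X_ne hxx]
  rw [hnP]
  refine ⟨iff_of_false (Point.some_ne_zero _) hn, fun x₂ y₂ h₂ e₂ ↦ ?_⟩
  obtain ⟨rfl, -⟩ := Point.some.inj e₂
  have hsum := addX_add_addX_negY h'.left h.left hxx
  have hlP' := hlP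
  rw [hpred, hmP, hP, Point.neg_some, Point.add_of_X_ne hxx] at hlP'
  rw [(Point.some.inj hlP').left] at hsum
  have hb2 := psiTwo_sq h.left
  simp only [← hbdef, Ψ₂Sq, eval_add, eval_mul, eval_pow, eval_X, eval_C] at hb2
  have iv := inv (m : ℤ)
  set X₂ : F := W.addX x' x (W.slope x' x y' y) with hX₂
  have hd : (X₂ + x₀ - 2 * x) * (x' - x) ^ 2 = b ^ 2 + e * (x' - x) := by
    linear_combination hsum - hb2
  set v : F := x' - x with hv
  have hv' : v * u (m : ℤ) ^ 2 = -(u ((m : ℤ) + 1) * u ((m : ℤ) - 1)) := by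
    linear_combination hx'
  set U : ℤ → F := u
  refine mul_right_cancel₀ (pow_ne_zero 2 hl) ?_
  linear_combination (u (m : ℤ) ^ 4) * hd - u ((m : ℤ) + 1) ^ 2 * hx₀
    - ((X₂ + x₀ - 2 * x) * (v * u (m : ℤ) ^ 2 - u ((m : ℤ) + 1) * u ((m : ℤ) - 1))
        - e * u (m : ℤ) ^ 2) * hv' + u (m : ℤ) * iv

lemma mulStatement (h : W.Nonsingular x y) (n : ℕ) : MulStatement h n := by
  induction n using Nat.strong_induction_on with
  | _ n ih =>
  rcases (show n = 0 ∨ n = 1 ∨ n = 2 ∨ 3 ≤ n by omega) with rfl | rfl | rfl | hn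
  · rw [MulStatement, Nat.cast_zero, zero_zsmul]
    exact ⟨iff_of_true rfl (normEDS_zero ..), fun _ _ _ e ↦ nomatch e⟩
  · rw [MulStatement, Nat.cast_one, one_zsmul]
    refine ⟨iff_of_false (Point.some_ne_zero h) ?_, fun x' y' h' e ↦ ?_⟩
    · rw [psiAt, normEDS_one]; exact one_ne_zero
    · obtain ⟨rfl, -⟩ := Point.some.inj e
      simp [psiAt]
  · exact mulStatement_two h
  · obtain ⟨m, rfl⟩ : ∃ m, n = m + 1 := ⟨n - 1, by omega⟩
    exact mulStatement_succ h (by omega) fun k hk ↦ ih k (by omega)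

/-- `n • P = 0` iff the `n`-th division polynomial vanishes at `P`. -/
theorem zsmul_some_eq_zero_iff (h : W.Nonsingular x y) (n : ℤ) :
    n • Point.some x y h = 0 ↔ (W.ψ n).evalEval x y = 0 := by
  rw [evalEval_ψ_eq_psiAt]
  rcases Int.eq_nat_or_neg n with ⟨k, rfl | rfl⟩
  · exact (mulStatement h k).1
  · rw [neg_zsmul, neg_eq_zero, (mulStatement h k).1]
    simp only [psiAt, normEDS_neg, neg_eq_zero]

/-- `n • P = 0` iff `ΨSq n` vanishes at `x(P)`. -/
theorem zsmul_some_eq_zero_iff_ΨSq (h : W.Nonsingular x y) (n : ℤ) :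
    n • Point.some x y h = 0 ↔ (W.ΨSq n).eval x = 0 := by
  rw [zsmul_some_eq_zero_iff h, evalEval_ψ_eq_psiAt, ΨSq_eval_eq h.left, sq_eq_zero_iff]

/-- `x(n • P) * ΨSq_n(x) = Φ_n(x)`. -/
theorem X_zsmul_some (h : W.Nonsingular x y) (n : ℤ) {x' y' : F} {h' : W.Nonsingular x' y'}
    (hn : n • Point.some x y h = Point.some x' y' h') :
    x' * (W.ΨSq n).eval x = (W.Φ n).eval x := by
  rcases Int.eq_nat_or_neg n with ⟨k, rfl | rfl⟩
  · rw [ΨSq_eval_eq h.left, Φ_eval_eq h.left]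
    exact (mulStatement h k).2 x' y' h' hn
  · rw [neg_zsmul, neg_eq_iff_eq_neg, Point.neg_some] at hn
    rw [WeierstrassCurve.ΨSq_neg, WeierstrassCurve.Φ_neg, ΨSq_eval_eq h.left, Φ_eval_eq h.left]
    exact (mulStatement h k).2 _ _ _ hn

end Fermat.Agent.ECTorsion
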